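import Mathlib
import Fermat.Agent.H66.SS.Frac
import Fermat.Agent.H66.ESD.GaussQEP
import Fermat.Agent.H61.KLCoeffDescent
import Fermat.Agent.H93.KL.NumberFieldDVR
import Fermat.Agent.H9.E6.RedCompat
import Fermat.Agent.H9.E6.Interfaces

/-!
# P-ORD, block B1, row B1-1 (RANGE), helper66

`L = ℚ̄`, `A` a valuation subring of `L` over the prime `p`, `k` its residue field, `p ∤ M`.

* `gaussRange_mul` : **the residue field of the Gauss valuation at `∞` of level `M p` is the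
  function field of level `M`** : the reduction of every element of the Gauss ring
  `gaussOBar (M * p) A` of `ℚ̄(X₀(M p))` lies in `modularFunctionFieldFullC k M`.
* `gaussRange_mul_exists` : more precisely, every `u` in the Gauss ring of level `M p` is
  congruent modulo the maximal ideal to an element `y` of the Gauss ring of level `M`.

Proof: descent to a number field `K₁` (`coeffDescent`), where `A ∩ K₁` is a discrete valuation
ring, FRAC over `(K₁, A ∩ K₁)` (`Fermat.Agent.H66.SS.modelFrac`), base change back to `ℚ̄`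
(helper9's `RedCompat`), and the `q`-expansion principle at the level `M` prime to `p`
(`gaussRange_uncond`).
-/

set_option autoImplicit false
set_option maxSynthPendingDepth 3
set_option linter.unusedSectionVars false
set_option linter.unusedVariables false
set_option linter.style.haveILetI false
set_option synthInstance.maxHeartbeats 400000
set_option maxHeartbeats 1600000

noncomputable section

namespace Fermat.Agent.H66.ORD

open ModularCurve
open Fermat.Agent.H22.KL Fermat.Agent.H7.SS Fermat.Agent.H93.KL Fermat.Agent.H9.E6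
open Fermat.Agent.H66 Fermat.Agent.H66.SS

theorem ordNumberField_of_fd (K₁ : Type) [Field K₁] [Algebra ℚ K₁]
    [hfd : FiniteDimensional ℚ K₁] : NumberField K₁ := by
  have : CharZero K₁ := algebraRat.charZero K₁
  refine @NumberField.mk K₁ _ inferInstance ?_
  convert hfd
  exact Subsingleton.elim _ _

section BaseChange

variable {K₁ : Type} [Field K₁] (ι : K₁ →+* QBar) (A : ValuationSubring QBar)
  [IsDiscreteValuationRing ↥(A.comap ι)]
variable (E : IntermediateField K₁ (LaurentSeries K₁))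

/-- `InV` over `A ∩ K₁` implies membership in the Gauss ring of `K₁((q))`. -/
theorem ord_mem_vGaussRing_of_inV {z : LaurentSeries K₁}
    (h : InV (A₀ := ↥(A.comap ι)) E z) : z ∈ vGaussRing (A.comap ι) := by
  obtain ⟨a, b, -, -, hrb, hab⟩ := h
  exact ⟨a, b, hrb, hab⟩

/-- `InM` over `A ∩ K₁` : the reduction vanishes. -/
theorem ord_vGaussRed_of_inM {z : LaurentSeries K₁}
    (h : InM (A₀ := ↥(A.comap ι)) E z) :
    ∃ hz : z ∈ vGaussRing (A.comap ι), vGaussRed (A.comap ι) ⟨z, hz⟩ = 0 := by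
  obtain ⟨a, b, -, -, hra, hrb, hab⟩ := h
  refine ⟨⟨a, b, hrb, hab⟩, ?_⟩
  rw [vGaussRed_eq_zero_iff]
  exact ⟨a, b, hrb, hra, hab⟩

/-- Base change of `InV`. -/
theorem ord_bc_inV {z : LaurentSeries K₁} (h : InV (A₀ := ↥(A.comap ι)) E z) :
    coeffMap ι z ∈ vGaussRing A :=
  coeffMap_mem_vGaussRing ι A (ord_mem_vGaussRing_of_inV ι A E h)

/-- Base change of `InM`. -/
theorem ord_bc_inM {z : LaurentSeries K₁} (h : InM (A₀ := ↥(A.comap ι)) E z) :
    ∃ hz : coeffMap ι z ∈ vGaussRing A, vGaussRed A ⟨coeffMap ι z, hz⟩ = 0 := by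
  obtain ⟨hz, hred⟩ := ord_vGaussRed_of_inM ι A E h
  refine ⟨coeffMap_mem_vGaussRing ι A hz, ?_⟩
  rw [vGaussRed_coeffMap ι A hz, hred, map_zero]

/-- Descent of `InV` : an element of `E` whose base change lies in the Gauss ring over `A` lies in
the Gauss valuation ring over `A ∩ K₁`. -/
theorem ord_inV_of_bc (hG : HasGNF ↥(A.comap ι) E) {z : LaurentSeries K₁} (hz : z ∈ E)
    (h : coeffMap ι z ∈ vGaussRing A) : InV (A₀ := ↥(A.comap ι)) E z := by
  by_cases hz0 : z = 0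
  · rw [hz0]
    exact inV_zero E
  obtain ⟨c, a, b, hc, ha, hb, hra, hrb, hab⟩ := hG z hz hz0
  have hra' : vRho A (coeffMap (comapHom ι A) a) ≠ 0 := by
    rw [vRho_coeffMap_comapHom]
    intro h0
    apply hra
    apply coeffMap_resMap_injective ι A
    rw [map_zero]
    exact h0
  have h1 : coeffMap ι z * vIota A (coeffMap (comapHom ι A) b) =
      algebraMap QBar (LaurentSeries QBar) (ι c) * vIota A (coeffMap (comapHom ι A) a) := by
    rw [vIota_coeffMap_comapHom, vIota_coeffMap_comapHom, ← map_mul]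
    have h2 : z * vIota (A.comap ι) b =
        algebraMap K₁ (LaurentSeries K₁) c * vIota (A.comap ι) a := hab
    rw [h2, map_mul]
    congr 1
    rw [algebraMap_laurentSeries_eq_single, coeffMap_single, ← algebraMap_laurentSeries_eq_single]
  have h3 : algebraMap QBar (LaurentSeries QBar) (ι c) *
      vIota A (coeffMap (comapHom ι A) a) ∈ vGaussRing A := by
    rw [← h1]
    exact mul_mem h (vIota_mem_vGaussRing A _)
  have hcA : ι c ∈ A :=
    mem_of_algebraMap_mul_mem A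
      (u := ⟨vIota A (coeffMap (comapHom ι A) a), vIota_mem_vGaussRing A _⟩)
      (by rw [vGaussRed_vIota]; exact hra') h3
  refine ⟨algebraMap ↥(A.comap ι) (LaurentSeries ↥(A.comap ι)) ⟨c, hcA⟩ * a, b, ?_, hb, hrb, ?_⟩
  · rw [gIota_algebraMap_mul]
    exact E.mul_mem (E.algebraMap_mem _) ha
  · rw [gIota_algebraMap_mul]
    exact hab

end BaseChange

/-- **RANGE, precise form.**  Every element of the Gauss ring of level `M p` is congruent
modulo the maximal ideal of the Gauss ring of `ℚ̄((q))` to an element of the Gauss ring of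
level `M`. -/
theorem gaussRange_mul_exists (M p : ℕ) [NeZero M] [NeZero p] (hp : p.Prime) (hpM : ¬ p ∣ M)
    (A : ValuationSubring QBar) (hA : A.LiesOverPrime p)
    (U : LaurentSeries QBar) (hU : U ∈ modularFunctionFieldBar (M * p))
    (hUV : U ∈ vGaussRing A) :
    ∃ (Y : LaurentSeries QBar) (_ : Y ∈ modularFunctionFieldBar M) (hYV : Y ∈ vGaussRing A),
      vGaussRed A ⟨U, hUV⟩ = vGaussRed A ⟨Y, hYV⟩ := by
  classical
  haveI : Fact p.Prime := ⟨hp⟩
  haveI : NeZero (M * p) := ⟨Nat.mul_ne_zero (NeZero.ne M) (NeZero.ne p)⟩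
  obtain ⟨K₀, hfd, hK₀⟩ := Fermat.Agent.H61.coeffDescent (modularFunctionFieldFull (M * p)) U hU
  haveI := hfd
  obtain ⟨f₁, hf₁, hf₁U⟩ := hK₀ ↥K₀ (algebraMap ↥K₀ QBar) (fun c hc => ⟨⟨c, hc⟩, rfl⟩)
  set ι : ↥K₀ →+* QBar := algebraMap ↥K₀ QBar with hι
  haveI : NumberField ↥K₀ := ordNumberField_of_fd ↥K₀
  have hpL : ((p : ℕ) : QBar) ≠ 0 := Nat.cast_ne_zero.mpr hp.ne_zero
  haveI hDVR : IsDiscreteValuationRing ↥(A.comap ι) :=
    Fermat.Agent.H93.KL.comap_isDiscreteValuationRing ι A hpL hA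
  obtain ⟨ϖ, hϖ⟩ := IsDiscreteValuationRing.exists_irreducible ↥(A.comap ι)
  letI := modelAlgebra ↥K₀ (A.comap ι) (M * p)
  haveI := modelAlgebra_isScalarTower ↥K₀ (A.comap ι) (M * p)
  have hnu : ¬ IsUnit ((p : ℕ) : ↥(A.comap ι)) := by
    have h1 := Fermat.Agent.H93.KL.natCast_mem_nonunits_comap ι A hA
    rw [ValuationSubring.mem_nonunits_iff_exists_mem_maximalIdeal] at h1
    obtain ⟨hmem, hmax⟩ := h1
    rw [IsLocalRing.mem_maximalIdeal, mem_nonunits_iff] at hmax
    intro hu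
    apply hmax
    have e : (⟨(p : ↥K₀), hmem⟩ : ↥(A.comap ι)) = ((p : ℕ) : ↥(A.comap ι)) :=
      Subtype.ext (by simp)
    rw [e]
    exact hu
  have hG := hasGNF_model ↥K₀ ↥(A.comap ι) (M * p)
  -- the element over the number field
  have hzV : InV (A₀ := ↥(A.comap ι))
      (laurentBaseChange ↥K₀ (modularFunctionFieldFull (M * p))) f₁ :=
    ord_inV_of_bc ι A _ hG hf₁ (by rw [hf₁U]; exact hUV)
  obtain ⟨a, b, ha, hb, hrb, hab⟩ := hzV
  have hbunit : ∃ (n : ℤ) (c : ↥(A.comap ι)), IsUnit c ∧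
      algebraMap ↥(A.comap ι) ↥K₀ c = (gIota ↥K₀ ↥(A.comap ι) b).coeff n := by
    by_contra hcon
    push Not at hcon
    apply hrb
    ext n
    rw [coeffMap_coeff, HahnSeries.coeff_zero, IsLocalRing.residue_eq_zero_iff,
      IsLocalRing.mem_maximalIdeal]
    intro hu
    exact hcon n (b.coeff n) hu (coeffMap_coeff _ _ _).symm
  set z : ModelField ↥K₀ (M * p) := ⟨f₁, hf₁⟩ with hz
  have hquot : ∃ a' b' : ModelField ↥K₀ (M * p),
      (∀ n : ℤ, (a' : LaurentSeries ↥K₀).coeff n ∈ (algebraMap ↥(A.comap ι) ↥K₀).range) ∧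
      (∀ n : ℤ, (b' : LaurentSeries ↥K₀).coeff n ∈ (algebraMap ↥(A.comap ι) ↥K₀).range) ∧
      (∃ (n : ℤ) (c : ↥(A.comap ι)), IsUnit c ∧
        algebraMap ↥(A.comap ι) ↥K₀ c = (b' : LaurentSeries ↥K₀).coeff n) ∧
      z * b' = a' :=
    ⟨⟨_, ha⟩, ⟨_, hb⟩, fun n => ⟨a.coeff n, (coeffMap_coeff _ _ _).symm⟩,
      fun n => ⟨b.coeff n, (coeffMap_coeff _ _ _).symm⟩, hbunit, Subtype.ext hab⟩
  -- the coordinate
  have hjmem : coeffEmb ↥K₀ jq ∈ laurentBaseChange ↥K₀ (modularFunctionFieldFull (M * p)) :=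
    coeffEmb_mem_laurentBaseChange ↥K₀ (by
      have h := jqd_mem_full (M * p) (one_dvd (M * p))
      rwa [qExpand_one_apply] at h)
  obtain ⟨b₁, b₂, -, -, hb₂, hD⟩ := modelFrac M p hp hpM ↥K₀ ↥(A.comap ι) hnu ϖ hϖ
    ⟨coeffEmb ↥K₀ jq, hjmem⟩ rfl z hquot
  set E := laurentBaseChange ↥K₀ (modularFunctionFieldFull (M * p)) with hE
  have hDM : InM (A₀ := ↥(A.comap ι)) E
      ((z * heckeAlphaBar ↥K₀ M p b₂ - heckeAlphaBar ↥K₀ M p b₁ : ModelField ↥K₀ (M * p)) :
        LaurentSeries ↥K₀) := fv_inM_of_quot E hϖ.not_isUnit hD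
  have hb₂M : ¬ InM (A₀ := ↥(A.comap ι)) E
      ((heckeAlphaBar ↥K₀ M p b₂ : ModelField ↥K₀ (M * p)) : LaurentSeries ↥K₀) :=
    fun h => hb₂ (fv_inM_exists_quot E h hϖ)
  have hb₂0 : ((heckeAlphaBar ↥K₀ M p b₂ : ModelField ↥K₀ (M * p)) : LaurentSeries ↥K₀) ≠ 0 := by
    intro h0
    apply hb₂M
    rw [h0]
    exact inM_zero E
  have hb₂inv : InV (A₀ := ↥(A.comap ι)) E
      ((heckeAlphaBar ↥K₀ M p b₂ : ModelField ↥K₀ (M * p)) : LaurentSeries ↥K₀)⁻¹ :=
    (inM_or_inV_inv E hG (heckeAlphaBar ↥K₀ M p b₂).2 hb₂0).resolve_left hb₂M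
  have hdiff : InM (A₀ := ↥(A.comap ι)) E
      (f₁ - (b₁ : LaurentSeries ↥K₀) * (b₂ : LaurentSeries ↥K₀)⁻¹) := by
    have h1 := fv_inM_mul E hDM hb₂inv
    have hb₂0' : (b₂ : LaurentSeries ↥K₀) ≠ 0 := by
      have e0 := coe_heckeAlphaBar M p b₂
      rw [← e0]
      exact hb₂0
    have h2 : ((z * heckeAlphaBar ↥K₀ M p b₂ - heckeAlphaBar ↥K₀ M p b₁ :
        ModelField ↥K₀ (M * p)) : LaurentSeries ↥K₀) *
        ((heckeAlphaBar ↥K₀ M p b₂ : ModelField ↥K₀ (M * p)) : LaurentSeries ↥K₀)⁻¹ =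
        f₁ - (b₁ : LaurentSeries ↥K₀) * (b₂ : LaurentSeries ↥K₀)⁻¹ := by
      have e1 : ((z * heckeAlphaBar ↥K₀ M p b₂ - heckeAlphaBar ↥K₀ M p b₁ :
          ModelField ↥K₀ (M * p)) : LaurentSeries ↥K₀) =
          f₁ * (b₂ : LaurentSeries ↥K₀) - (b₁ : LaurentSeries ↥K₀) := by
        push_cast
        rw [coe_heckeAlphaBar, coe_heckeAlphaBar]
      rw [e1, coe_heckeAlphaBar]
      field_simp
    rw [h2] at h1
    exact h1
  -- base change
  obtain ⟨hmem, hred⟩ := ord_bc_inM ι A E hdiff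
  have hYmem : coeffMap ι ((b₁ : LaurentSeries ↥K₀) * (b₂ : LaurentSeries ↥K₀)⁻¹) ∈
      modularFunctionFieldBar M :=
    coeffMap_mem_laurentBaseChange_bar ι (modularFunctionFieldFull M)
      (mul_mem b₁.2 (inv_mem b₂.2))
  have hsub : coeffMap ι (f₁ - (b₁ : LaurentSeries ↥K₀) * (b₂ : LaurentSeries ↥K₀)⁻¹) =
      U - coeffMap ι ((b₁ : LaurentSeries ↥K₀) * (b₂ : LaurentSeries ↥K₀)⁻¹) := by
    rw [map_sub, hf₁U]
  have hYV : coeffMap ι ((b₁ : LaurentSeries ↥K₀) * (b₂ : LaurentSeries ↥K₀)⁻¹) ∈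
      vGaussRing A := by
    have h1 : coeffMap ι ((b₁ : LaurentSeries ↥K₀) * (b₂ : LaurentSeries ↥K₀)⁻¹) =
        U - coeffMap ι (f₁ - (b₁ : LaurentSeries ↥K₀) * (b₂ : LaurentSeries ↥K₀)⁻¹) := by
      rw [hsub]
      ring
    rw [h1]
    exact sub_mem hUV hmem
  refine ⟨_, hYmem, hYV, ?_⟩
  have h2 : (⟨U, hUV⟩ : ↥(vGaussRing A)) =
      ⟨coeffMap ι ((b₁ : LaurentSeries ↥K₀) * (b₂ : LaurentSeries ↥K₀)⁻¹), hYV⟩ +
      ⟨coeffMap ι (f₁ - (b₁ : LaurentSeries ↥K₀) * (b₂ : LaurentSeries ↥K₀)⁻¹), hmem⟩ := by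
    apply Subtype.ext
    show U = coeffMap ι ((b₁ : LaurentSeries ↥K₀) * (b₂ : LaurentSeries ↥K₀)⁻¹) +
      coeffMap ι (f₁ - (b₁ : LaurentSeries ↥K₀) * (b₂ : LaurentSeries ↥K₀)⁻¹)
    rw [hsub]
    ring
  rw [h2, map_add, hred, add_zero]

/-- **RANGE** (`B1-1`) : the reduction of the Gauss ring of level `M p` (`p ∤ M`) lies in the
function field of level `M` over the residue field. -/
theorem gaussRange_mul (M p : ℕ) [NeZero M] [NeZero p] (hp : p.Prime) (hpM : ¬ p ∣ M)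
    (A : ValuationSubring QBar) (hA : A.LiesOverPrime p) (u : ↥(gaussOBar (M * p) A)) :
    gaussRedBar (M * p) A u ∈ modularFunctionFieldFullC (IsLocalRing.ResidueField ↥A) M := by
  haveI : Fact p.Prime := ⟨hp⟩
  obtain ⟨Y, hY, hYV, hred⟩ := gaussRange_mul_exists M p hp hpM A hA
    ((u : ↥(modularFunctionFieldBar (M * p))) : LaurentSeries QBar)
    (u : ↥(modularFunctionFieldBar (M * p))).2 u.2
  have h1 := gaussRange_uncond M p hpM A hA ⟨⟨Y, hY⟩, hYV⟩
  rw [gaussRedBar_apply] at h1 ⊢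
  rw [hred]
  exact h1

/-- **(B1-1b)** In characteristic `p` the function fields of level `M p` and of level `M` are
the same subfield of `k((q))` (`k` the residue field of `A`). -/
theorem fullC_mul_eq (M p : ℕ) [NeZero M] [NeZero p] (hp : p.Prime) (hpM : ¬ p ∣ M)
    (A : ValuationSubring QBar) (hA : A.LiesOverPrime p) :
    haveI : NeZero (M * p) := ⟨Nat.mul_ne_zero (NeZero.ne M) (NeZero.ne p)⟩
    modularFunctionFieldFullC (IsLocalRing.ResidueField ↥A) (M * p) =
      modularFunctionFieldFullC (IsLocalRing.ResidueField ↥A) M := by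
  haveI : Fact p.Prime := ⟨hp⟩
  haveI : NeZero (M * p) := ⟨Nat.mul_ne_zero (NeZero.ne M) (NeZero.ne p)⟩
  apply le_antisymm
  · intro y hy
    obtain ⟨u, rfl⟩ := gaussSurj (M * p) p A hA y hy
    exact gaussRange_mul M p hp hpM A hA u
  · exact full_degeneracyC_le (IsLocalRing.ResidueField ↥A) (dvd_mul_right M p)

/-- **RANGE, iff form** : the range of the reduction map of the Gauss ring of level `M p` is
exactly the function field of level `M` over the residue field. -/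
theorem gaussRedBar_range_mul (M p : ℕ) [NeZero M] [NeZero p] (hp : p.Prime) (hpM : ¬ p ∣ M)
    (A : ValuationSubring QBar) (hA : A.LiesOverPrime p)
    (y : LaurentSeries (IsLocalRing.ResidueField ↥A)) :
    (∃ u : ↥(gaussOBar (M * p) A), gaussRedBar (M * p) A u = y) ↔
      y ∈ modularFunctionFieldFullC (IsLocalRing.ResidueField ↥A) M := by
  haveI : Fact p.Prime := ⟨hp⟩
  haveI : NeZero (M * p) := ⟨Nat.mul_ne_zero (NeZero.ne M) (NeZero.ne p)⟩
  constructor
  · rintro ⟨u, rfl⟩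
    exact gaussRange_mul M p hp hpM A hA u
  · intro hy
    exact gaussSurj (M * p) p A hA y
      (full_degeneracyC_le (IsLocalRing.ResidueField ↥A) (dvd_mul_right M p) hy)

/-- The reduction map of level `M p`, co-restricted to the function field of level `M`. -/
def gaussRedMul (M p : ℕ) [NeZero M] [NeZero p] (hp : p.Prime) (hpM : ¬ p ∣ M)
    (A : ValuationSubring QBar) (hA : A.LiesOverPrime p) :
    ↥(gaussOBar (M * p) A) →+* ↥(modularFunctionFieldFullC (IsLocalRing.ResidueField ↥A) M) :=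
  RingHom.codRestrict (gaussRedBar (M * p) A)
    (modularFunctionFieldFullC (IsLocalRing.ResidueField ↥A) M).toSubfield.toSubring
    (fun u => gaussRange_mul M p hp hpM A hA u)

@[simp]
theorem coe_gaussRedMul (M p : ℕ) [NeZero M] [NeZero p] (hp : p.Prime) (hpM : ¬ p ∣ M)
    (A : ValuationSubring QBar) (hA : A.LiesOverPrime p) (u : ↥(gaussOBar (M * p) A)) :
    ((gaussRedMul M p hp hpM A hA u :
        ↥(modularFunctionFieldFullC (IsLocalRing.ResidueField ↥A) M)) :
      LaurentSeries (IsLocalRing.ResidueField ↥A)) = gaussRedBar (M * p) A u := rfl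

theorem gaussRedMul_surjective (M p : ℕ) [NeZero M] [NeZero p] (hp : p.Prime) (hpM : ¬ p ∣ M)
    (A : ValuationSubring QBar) (hA : A.LiesOverPrime p) :
    Function.Surjective (gaussRedMul M p hp hpM A hA) := by
  intro y
  obtain ⟨u, hu⟩ := (gaussRedBar_range_mul M p hp hpM A hA y).2 y.2
  exact ⟨u, Subtype.ext hu⟩

end Fermat.Agent.H66.ORD

end
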