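import Mathlib
import Fermat.Agent.H66.ORD.RangeMul
import Fermat.Agent.H84.ORD.NodalModel
import Fermat.Agent.H62.SS.AtkinLehnerModel
import Fermat.Agent.H7.SS2.Vertical

/-!
# P-ORD, block B1 : THE DESCENT DICTIONARY `(ℚ̄, A)` ⟷ `(K₁, A ∩ K₁)` (helper66)

`ι : K₁ → ℚ̄` a number field, `A` a valuation subring of `ℚ̄` over `p`, `A₁ = A.comap ι` (a
discrete valuation ring), `E₁ = ModelField K₁ N`, `bc = klBc ι : E₁ → FLb N` the coefficientwise
base change.  Objects of helper84's `Fermat.Agent.H84.ORD.NodalModel` on the left, objects of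
the P-SS chart language on the right:

* `bc_mem_gaussOBar_iff` : `bc f₁ ∈ V_∞ = gaussOBar N A ↔ f₁ ∈ vInf K₁ A₁ N`;
* `bc_gaussRedBar_eq_zero_iff` : `red_∞ (bc f₁) = 0 ↔ f₁ ∈ 𝔪 (vInf K₁ A₁ N)`;
* `exists_modelW` : a model Atkin-Lehner automorphism `W₁` with `bc (W₁ f₁) = nmW (bc f₁)`;
* `bc_mem_nmV0_iff`, `bc_nmRed0_eq_zero_iff` : the same for `V_0 = nmV0`, `vZero K₁ A₁ N W₁`;
* `bc_mem_nmChart` : `f₁ ∈ chartClosure A₁ E₁ y₁ → bc f₁ ∈ nmChart N A (bc y₁)`.
-/

set_option autoImplicit false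
set_option maxSynthPendingDepth 3
set_option linter.unusedSectionVars false
set_option linter.unusedVariables false
set_option linter.style.haveILetI false
set_option synthInstance.maxHeartbeats 400000
set_option maxHeartbeats 1600000

noncomputable section

namespace Fermat.Agent.H66.ORD

open ModularCurve AlgebraicCurve Polynomial
open Fermat.Agent.H22.KL Fermat.Agent.H7.SS Fermat.Agent.H7.SS2 Fermat.Agent.H93.KL
open Fermat.Agent.H9.E6 Fermat.Agent.H66 Fermat.Agent.H66.SS Fermat.Agent.H84.ORD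
open Fermat.Agent.H72.FF Fermat.Agent.H82.SS

section Gauss

variable {K₁ : Type} [Field K₁] [Algebra ℚ K₁] (ι : K₁ →+* QBar) (A : ValuationSubring QBar)
  [IsDiscreteValuationRing ↥(A.comap ι)] (N : ℕ)

/-- `bc f₁ ∈ V_∞ ↔ f₁ ∈ V_∞ (K₁, A ∩ K₁)`. -/
theorem bc_mem_gaussOBar_iff (f₁ : ModelField K₁ N) :
    klBc ι (modularFunctionFieldFull N) f₁ ∈ gaussOBar N A ↔
      f₁ ∈ vInf K₁ ↥(A.comap ι) N := by
  rw [mem_vInf_iff]
  constructor
  · intro h
    exact ord_inV_of_bc ι A _ (hasGNF_model K₁ ↥(A.comap ι) N) f₁.2 h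
  · intro h
    exact ord_bc_inV ι A _ h

/-- `red_∞ (bc f₁) = 0 ↔ f₁ ∈ 𝔪_∞ (K₁, A ∩ K₁)`. -/
theorem bc_gaussRedBar_eq_zero_iff (f₁ : ModelField K₁ N)
    (h : klBc ι (modularFunctionFieldFull N) f₁ ∈ gaussOBar N A) :
    gaussRedBar N A ⟨klBc ι (modularFunctionFieldFull N) f₁, h⟩ = 0 ↔
      f₁ ∈ (vInf K₁ ↥(A.comap ι) N).nonunits := by
  rw [mem_nonunits_vInf_iff]
  constructor
  · intro hred
    by_contra hM
    have hf0 : (f₁ : LaurentSeries K₁) ≠ 0 := by
      intro h0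
      apply hM
      rw [h0]
      exact inM_zero _
    have hinv := (inM_or_inV_inv _ (hasGNF_model K₁ ↥(A.comap ι) N) f₁.2 hf0).resolve_left hM
    have h2 := ord_bc_inV ι A _ hinv
    -- `bc f₁` is a unit of the Gauss ring
    have h3 : (⟨coeffMap ι (f₁ : LaurentSeries K₁), h⟩ : ↥(vGaussRing A)) *
        ⟨coeffMap ι (f₁ : LaurentSeries K₁)⁻¹, h2⟩ = 1 := by
      apply Subtype.ext
      show coeffMap ι (f₁ : LaurentSeries K₁) * coeffMap ι (f₁ : LaurentSeries K₁)⁻¹ = 1
      rw [← map_mul, mul_inv_cancel₀ hf0, map_one]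
    have h4 := congrArg (vGaussRed A) h3
    rw [map_mul, map_one] at h4
    rw [gaussRedBar_apply] at hred
    have h5 : vGaussRed A ⟨coeffMap ι (f₁ : LaurentSeries K₁), h⟩ = 0 := hred
    rw [h5, zero_mul] at h4
    exact zero_ne_one h4
  · intro hM
    obtain ⟨hz, hred⟩ := ord_bc_inM ι A _ hM
    rw [gaussRedBar_apply]
    exact hred

end Gauss

section AL

variable (M p : ℕ) [NeZero M] [NeZero p] (hcop : Nat.Coprime M p)
variable {K₁ : Type} [Field K₁] [Algebra ℚ K₁] (ι : K₁ →+* QBar) (A : ValuationSubring QBar)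

/-- **The model Atkin-Lehner automorphism compatible with `nmW`.** -/
theorem exists_modelW :
    ∃ W₁ : ModelField K₁ (M * p) ≃ₐ[K₁] ModelField K₁ (M * p),
      IsAtkinLehnerModel K₁ M p W₁ ∧
      ∀ f, klBc ι (modularFunctionFieldFull (M * p)) (W₁ f) =
        nmW M p hcop (klBc ι (modularFunctionFieldFull (M * p)) f) := by
  obtain ⟨hgens, hα, hβ, hinv⟩ := nmW_spec M p hcop
  have hrat : ∀ w : ↥(modularFunctionFieldFull (M * p)),
      ∃ w' : ↥(modularFunctionFieldFull (M * p)),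
        nmW M p hcop (Fermat.Agent.H62.SS.ratBar (modularFunctionFieldFull (M * p)) w)
          = Fermat.Agent.H62.SS.ratBar (modularFunctionFieldFull (M * p)) w' := by
    refine Fermat.Agent.H62.SS.rat_stable (modularFunctionFieldFull (M * p))
      (divisorExpansions (M * p)) rfl (nmW M p hcop) ?_
    rintro x ⟨d, hd0, hd, rfl⟩ hxF
    obtain ⟨d'', hd0'', hd'', h1, -⟩ := hgens d hd0 hd
    refine ⟨⟨qExpand ℚ d'' jq, jqd_mem_full (M * p) hd''⟩, ?_⟩
    exact h1
  obtain ⟨W₁, hW₁⟩ := Fermat.Agent.H62.SS.exists_descent ι (modularFunctionFieldFull (M * p))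
    (nmW M p hcop) hinv hrat
  have hbinj : Function.Injective (klBc ι (modularFunctionFieldFull (M * p))) :=
    (klBc ι (modularFunctionFieldFull (M * p))).injective
  have hbα : ∀ f : ModelField K₁ M,
      klBc ι (modularFunctionFieldFull (M * p)) (heckeAlphaBar K₁ M p f)
        = heckeAlphaBar QBar M p (klBc ι (modularFunctionFieldFull M) f) := by
    intro f
    apply Subtype.ext
    rw [klBc_coe, coe_heckeAlphaBar, coe_heckeAlphaBar, klBc_coe]
  have hbβ : ∀ f : ModelField K₁ M,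
      klBc ι (modularFunctionFieldFull (M * p)) (heckeBetaBar K₁ M p f)
        = heckeBetaBar QBar M p (klBc ι (modularFunctionFieldFull M) f) := by
    intro f
    apply Subtype.ext
    rw [klBc_coe, coe_heckeBetaBar, coe_heckeBetaBar, klBc_coe]
    exact coeffMap_qExpand ι p _
  refine ⟨W₁, ⟨fun f => ?_, fun f => ?_⟩, hW₁⟩
  · apply hbinj
    rw [hW₁, hbα, hα, hbβ]
  · apply hbinj
    rw [hW₁, hbβ, hβ, hbα]

variable [IsDiscreteValuationRing ↥(A.comap ι)]
variable (W₁ : ModelField K₁ (M * p) ≃ₐ[K₁] ModelField K₁ (M * p))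
  (hW₁ : ∀ f, klBc ι (modularFunctionFieldFull (M * p)) (W₁ f) =
    nmW M p hcop (klBc ι (modularFunctionFieldFull (M * p)) f))

include hW₁

/-- `bc f₁ ∈ V_0 ↔ f₁ ∈ V_0 (K₁, A ∩ K₁)`. -/
theorem bc_mem_nmV0_iff (f₁ : ModelField K₁ (M * p)) :
    klBc ι (modularFunctionFieldFull (M * p)) f₁ ∈ nmV0 M p hcop A ↔
      f₁ ∈ vZero K₁ ↥(A.comap ι) (M * p) W₁ := by
  rw [mem_nmV0_iff, mem_vZero_iff, ← hW₁, bc_mem_gaussOBar_iff]

/-- `red_0 (bc f₁) = 0 ↔ f₁ ∈ 𝔪_0 (K₁, A ∩ K₁)`. -/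
theorem bc_nmRed0_eq_zero_iff (f₁ : ModelField K₁ (M * p))
    (h : klBc ι (modularFunctionFieldFull (M * p)) f₁ ∈ nmV0 M p hcop A) :
    nmRed0 M p hcop A ⟨klBc ι (modularFunctionFieldFull (M * p)) f₁, h⟩ = 0 ↔
      f₁ ∈ (vZero K₁ ↥(A.comap ι) (M * p) W₁).nonunits := by
  have h1 : klBc ι (modularFunctionFieldFull (M * p)) (W₁ f₁) ∈ gaussOBar (M * p) A := by
    rw [hW₁]
    exact h
  have h2 := bc_gaussRedBar_eq_zero_iff ι A (M * p) (W₁ f₁) h1
  rw [mem_nonunits_vZero_iff, ← h2, nmRed0_apply, nmRedOo_eq_zero_iff]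
  have e : (⟨nmW M p hcop (klBc ι (modularFunctionFieldFull (M * p)) f₁), h⟩ :
      ↥(gaussOBar (M * p) A)) = ⟨klBc ι (modularFunctionFieldFull (M * p)) (W₁ f₁), h1⟩ :=
    Subtype.ext (hW₁ f₁).symm
  show gaussRedBar (M * p) A ⟨nmW M p hcop (klBc ι (modularFunctionFieldFull (M * p)) f₁), h⟩
    = 0 ↔ _
  rw [e]

end AL

/-! ### Integrality : base change and descent -/

section Integral

variable (N : ℕ) (A : ValuationSubring QBar)

theorem algebraMap_mem_nmPoly (y : FLb N) {c : QBar} (hc : c ∈ A) :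
    algebraMap QBar (FLb N) c ∈ nmPoly N A y :=
  Subring.subset_closure (Or.inl ⟨c, hc, rfl⟩)

theorem self_mem_nmPoly (y : FLb N) : y ∈ nmPoly N A y :=
  Subring.subset_closure (Or.inr rfl)

/-- **Base change of integrality** : `f₁ ∈ B(y₁)` over `A ∩ K₁` implies `bc f₁ ∈ B̄(bc y₁)`. -/
theorem bc_mem_nmChart {K₁ : Type} [Field K₁] [Algebra ℚ K₁] (ι : K₁ →+* QBar)
    [Algebra ↥(A.comap ι) (ModelField K₁ N)]
    [IsScalarTower ↥(A.comap ι) K₁ (ModelField K₁ N)]
    (y₁ f₁ : ModelField K₁ N)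
    (hf : f₁ ∈ chartClosure ↥(A.comap ι) (ModelField K₁ N) y₁) :
    klBc ι (modularFunctionFieldFull N) f₁ ∈
      nmChart N A (klBc ι (modularFunctionFieldFull N) y₁) := by
  have hmem : ∀ c ∈ chartRing ↥(A.comap ι) (ModelField K₁ N) y₁,
      klBc ι (modularFunctionFieldFull N) c ∈
        nmPoly N A (klBc ι (modularFunctionFieldFull N) y₁) := by
    intro c hc
    induction hc using Algebra.adjoin_induction with
    | mem x hx =>
      rw [Set.mem_singleton_iff] at hx
      rw [hx]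
      exact self_mem_nmPoly N A _
    | algebraMap a =>
      rw [IsScalarTower.algebraMap_apply ↥(A.comap ι) K₁ (ModelField K₁ N),
        Fermat.Agent.H62.SS.klBc_algebraMap']
      exact algebraMap_mem_nmPoly N A _ a.2
    | add x z _ _ hx hz => rw [map_add]; exact add_mem hx hz
    | mul x z _ _ hx hz => rw [map_mul]; exact mul_mem hx hz
  let φ : ↥(chartRing ↥(A.comap ι) (ModelField K₁ N) y₁) →+*
      ↥(nmPoly N A (klBc ι (modularFunctionFieldFull N) y₁)) :=
    RingHom.codRestrict ((klBc ι (modularFunctionFieldFull N)).comp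
      (chartRing ↥(A.comap ι) (ModelField K₁ N) y₁).toSubring.subtype) _
      (fun c => hmem c c.2)
  obtain ⟨P, hP, hroot⟩ := (Fermat.Agent.H85.klc_mem_chartClosure_iff y₁ f₁).1 hf
  rw [mem_nmChart_iff]
  refine ⟨P.map φ, hP.map φ, ?_⟩
  rw [Polynomial.eval₂_map]
  have hcomp : (nmPoly N A (klBc ι (modularFunctionFieldFull N) y₁)).subtype.comp φ =
      (klBc ι (modularFunctionFieldFull N)).comp
        (algebraMap ↥(chartRing ↥(A.comap ι) (ModelField K₁ N) y₁) (ModelField K₁ N)) :=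
    RingHom.ext fun c => rfl
  rw [hcomp, ← Polynomial.hom_eval₂, hroot, map_zero]

/-- `g` comes from `(A ∩ K)[y_K]` for all large number fields `K`. -/
def DescPoly (w : ↥(modularFunctionFieldFull N)) (g : FLb N) : Prop :=
  ∃ K₀ : IntermediateField ℚ QBar, FiniteDimensional ℚ ↥K₀ ∧
    ∀ K : IntermediateField ℚ QBar, K₀ ≤ K →
      ∃ P : (↥(A.comap (algebraMap ↥K QBar)))[X],
        klBc (algebraMap ↥K QBar) (modularFunctionFieldFull N)
          (P.eval₂ ((algebraMap ↥K (ModelField ↥K N)).comp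
              (A.comap (algebraMap ↥K QBar)).subtype)
            (Fermat.Agent.H62.SS.ratK (K₁ := ↥K) (modularFunctionFieldFull N) w)) = g

variable {N A}

theorem descPoly_const (w : ↥(modularFunctionFieldFull N)) {c : QBar} (hc : c ∈ A) :
    DescPoly N A w (algebraMap QBar (FLb N) c) := by
  refine ⟨IntermediateField.adjoin ℚ {c}, ?_, fun K hK => ?_⟩
  · exact IntermediateField.adjoin.finiteDimensional
      ((AlgebraicClosure.isAlgebraic ℚ).isAlgebraic c).isIntegral
  · have hcK : c ∈ K := hK (IntermediateField.mem_adjoin_simple_self ℚ c)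
    refine ⟨Polynomial.C ⟨⟨c, hcK⟩, hc⟩, ?_⟩
    rw [Polynomial.eval₂_C]
    exact Fermat.Agent.H62.SS.klBc_algebraMap' (algebraMap ↥K QBar)
      (modularFunctionFieldFull N) ⟨c, hcK⟩

theorem descPoly_self (w : ↥(modularFunctionFieldFull N)) :
    DescPoly N A w (Fermat.Agent.H62.SS.ratBar (modularFunctionFieldFull N) w) := by
  refine ⟨⊥, inferInstance, fun K _ => ⟨Polynomial.X, ?_⟩⟩
  rw [Polynomial.eval₂_X]
  exact Fermat.Agent.H62.SS.klBc_ratK _ _ w

theorem DescPoly.add {w : ↥(modularFunctionFieldFull N)} {g h : FLb N}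
    (hg : DescPoly N A w g) (hh : DescPoly N A w h) : DescPoly N A w (g + h) := by
  obtain ⟨K₁, hK₁, h1⟩ := hg
  obtain ⟨K₂, hK₂, h2⟩ := hh
  haveI := hK₁
  haveI := hK₂
  refine ⟨K₁ ⊔ K₂, inferInstance, fun K hK => ?_⟩
  obtain ⟨P, hP⟩ := h1 K (le_trans le_sup_left hK)
  obtain ⟨Q, hQ⟩ := h2 K (le_trans le_sup_right hK)
  exact ⟨P + Q, by rw [Polynomial.eval₂_add, map_add, hP, hQ]⟩

theorem DescPoly.mul {w : ↥(modularFunctionFieldFull N)} {g h : FLb N}
    (hg : DescPoly N A w g) (hh : DescPoly N A w h) : DescPoly N A w (g * h) := by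
  obtain ⟨K₁, hK₁, h1⟩ := hg
  obtain ⟨K₂, hK₂, h2⟩ := hh
  haveI := hK₁
  haveI := hK₂
  refine ⟨K₁ ⊔ K₂, inferInstance, fun K hK => ?_⟩
  obtain ⟨P, hP⟩ := h1 K (le_trans le_sup_left hK)
  obtain ⟨Q, hQ⟩ := h2 K (le_trans le_sup_right hK)
  exact ⟨P * Q, by rw [Polynomial.eval₂_mul, map_mul, hP, hQ]⟩

theorem DescPoly.neg {w : ↥(modularFunctionFieldFull N)} {g : FLb N}
    (hg : DescPoly N A w g) : DescPoly N A w (-g) := by
  obtain ⟨K₁, hK₁, h1⟩ := hg
  refine ⟨K₁, hK₁, fun K hK => ?_⟩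
  obtain ⟨P, hP⟩ := h1 K hK
  exact ⟨-P, by rw [Polynomial.eval₂_neg, map_neg, hP]⟩

theorem descPoly_zero (w : ↥(modularFunctionFieldFull N)) : DescPoly N A w 0 :=
  ⟨⊥, inferInstance, fun K _ => ⟨0, by rw [Polynomial.eval₂_zero, map_zero]⟩⟩

theorem descPoly_one (w : ↥(modularFunctionFieldFull N)) : DescPoly N A w 1 :=
  ⟨⊥, inferInstance, fun K _ => ⟨1, by rw [Polynomial.eval₂_one, map_one]⟩⟩

/-- Every element of `A[y]` comes from `(A ∩ K)[y_K]` for all large number fields `K`. -/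
theorem descPoly_of_mem_nmPoly (w : ↥(modularFunctionFieldFull N)) {g : FLb N}
    (hg : g ∈ nmPoly N A (Fermat.Agent.H62.SS.ratBar (modularFunctionFieldFull N) w)) :
    DescPoly N A w g := by
  induction hg using Subring.closure_induction with
  | mem x hx =>
    rcases hx with ⟨c, hc, rfl⟩ | hx
    · exact descPoly_const w hc
    · rw [Set.mem_singleton_iff] at hx
      rw [hx]
      exact descPoly_self w
  | zero => exact descPoly_zero w
  | one => exact descPoly_one w
  | add x y _ _ hx hy => exact hx.add hy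
  | neg x _ hx => exact hx.neg
  | mul x y _ _ hx hy => exact hx.mul hy

theorem finiteDimensional_finset_sup {ι : Type*} (s : Finset ι)
    (K : ι → IntermediateField ℚ QBar) (hK : ∀ i ∈ s, FiniteDimensional ℚ ↥(K i)) :
    FiniteDimensional ℚ ↥(s.sup K) := by
  classical
  induction s using Finset.induction_on with
  | empty =>
    rw [Finset.sup_empty]
    infer_instance
  | insert a s _ ih =>
    rw [Finset.sup_insert]
    haveI := hK a (Finset.mem_insert_self a s)
    haveI := ih (fun i hi => hK i (Finset.mem_insert_of_mem hi))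
    infer_instance

/-- **Descent of integrality** : an element of the `ℚ̄`-chart `B̄(y)` (`y` rational) comes, for
every large number field `K`, from the chart `B(y_K)` over `A ∩ K`. -/
theorem exists_descent_nmChart (w : ↥(modularFunctionFieldFull N)) (f : FLb N)
    (hf : f ∈ nmChart N A (Fermat.Agent.H62.SS.ratBar (modularFunctionFieldFull N) w)) :
    ∃ K₀ : IntermediateField ℚ QBar, FiniteDimensional ℚ ↥K₀ ∧
      ∀ K : IntermediateField ℚ QBar, K₀ ≤ K →
        ∃ f₁ : ModelField ↥K N,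
          klBc (algebraMap ↥K QBar) (modularFunctionFieldFull N) f₁ = f ∧
          letI := modelAlgebra ↥K (A.comap (algebraMap ↥K QBar)) N
          f₁ ∈ chartClosure ↥(A.comap (algebraMap ↥K QBar)) (ModelField ↥K N)
            (Fermat.Agent.H62.SS.ratK (K₁ := ↥K) (modularFunctionFieldFull N) w) := by
  classical
  obtain ⟨q, hq, hroot⟩ := (mem_nmChart_iff N A _ f).1 hf
  obtain ⟨Kf, hKf, hf₁⟩ := Fermat.Agent.H61.coeffDescent (modularFunctionFieldFull N)
    (f : LaurentSeries QBar) f.2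
  have hcoeff : ∀ i, DescPoly N A w ((q.coeff i : ↥(nmPoly N A
      (Fermat.Agent.H62.SS.ratBar (modularFunctionFieldFull N) w))) : FLb N) :=
    fun i => descPoly_of_mem_nmPoly w (q.coeff i).2
  choose K₀ hK₀fd hK₀ using hcoeff
  refine ⟨Kf ⊔ (Finset.range (q.natDegree + 1)).sup K₀, ?_, fun K hK => ?_⟩
  · haveI := hKf
    haveI := finiteDimensional_finset_sup (Finset.range (q.natDegree + 1)) K₀
      (fun i _ => hK₀fd i)
    infer_instance
  · obtain ⟨f₁s, hf₁mem, hf₁eq⟩ := hf₁ ↥K (algebraMap ↥K QBar)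
      (fun c hc => ⟨⟨c, (le_trans le_sup_left hK) hc⟩, rfl⟩)
    refine ⟨⟨f₁s, hf₁mem⟩, Subtype.ext hf₁eq, ?_⟩
    letI := modelAlgebra ↥K (A.comap (algebraMap ↥K QBar)) N
    have hbcf : klBc (algebraMap ↥K QBar) (modularFunctionFieldFull N) ⟨f₁s, hf₁mem⟩ = f :=
      Subtype.ext hf₁eq
    have hl : q.map (nmPoly N A
        (Fermat.Agent.H62.SS.ratBar (modularFunctionFieldFull N) w)).subtype ∈
        Polynomial.lifts ((klBc (algebraMap ↥K QBar) (modularFunctionFieldFull N)).comp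
          (algebraMap ↥(chartRing ↥(A.comap (algebraMap ↥K QBar)) (ModelField ↥K N)
            (Fermat.Agent.H62.SS.ratK (K₁ := ↥K) (modularFunctionFieldFull N) w))
            (ModelField ↥K N))) := by
      rw [Polynomial.lifts_iff_coeff_lifts]
      intro i
      rw [Polynomial.coeff_map]
      by_cases hi : i ∈ Finset.range (q.natDegree + 1)
      · obtain ⟨P, hP⟩ := hK₀ i K
          (le_trans (le_trans (Finset.le_sup hi) le_sup_right) hK)
        have hmem : P.eval₂ ((algebraMap ↥K (ModelField ↥K N)).comp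
            (A.comap (algebraMap ↥K QBar)).subtype)
            (Fermat.Agent.H62.SS.ratK (K₁ := ↥K) (modularFunctionFieldFull N) w) ∈
            chartRing ↥(A.comap (algebraMap ↥K QBar)) (ModelField ↥K N)
              (Fermat.Agent.H62.SS.ratK (K₁ := ↥K) (modularFunctionFieldFull N) w) := by
          rw [Fermat.Agent.H85.klc_mem_chartRing_iff]
          exact ⟨P, rfl⟩
        exact ⟨⟨_, hmem⟩, hP⟩
      · have h0 : q.coeff i = 0 := by
          apply Polynomial.coeff_eq_zero_of_natDegree_lt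
          rw [Finset.mem_range] at hi
          omega
        rw [h0]
        exact ⟨0, by simp⟩
    obtain ⟨Q₀, hQ₀, -, hQ₀m⟩ := Polynomial.lifts_and_natDegree_eq_and_monic hl (hq.map _)
    rw [Fermat.Agent.H85.klc_mem_chartClosure_iff]
    refine ⟨Q₀, hQ₀m, ?_⟩
    apply (klBc (algebraMap ↥K QBar) (modularFunctionFieldFull N)).injective
    rw [map_zero, Polynomial.hom_eval₂, ← Polynomial.eval_map, hQ₀, Polynomial.eval_map, hbcf]
    exact hroot

end Integral

end Fermat.Agent.H66.ORD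

end
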