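import Mathlib
import Fermat.Agent.H84.ORD.NodalModel
import Fermat.Agent.H94.FF.Val
import Fermat.Agent.H70.SS.RatPlaceModular

/-!
# P-ORD, block B1 : the composite valuation ring of a place and `A` (helper66)

`P` a place of `F = FLb N`, `A` a valuation subring of `ℚ̄`.

* `nmIntVal A P : ValuationSubring (FLb N)` : the composite valuation ring
  `{f | f(P) ∈ A}` (`= nmInt A P` of `Fermat.Agent.H84.ORD.NodalModel`);
* `mem_nmInt_or_inv_mem_nmMax` : `f(P) ∈ A` or `f⁻¹(P) ∈ 𝔪_A`;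
* `nmChart_le_nmInt` : if `y(P) ∈ A` then every element of the chart `B̄(y)` (integral over
  `A[y]`) has a value in `A` at `P`;
* `nmY_mem_nmInt` : the chart coordinate of `P` has a value in `A`;
* `nmMax` is an ideal of `nmInt`, and `1 ∉ nmMax`.
-/

set_option autoImplicit false
set_option linter.unusedSectionVars false
set_option linter.unusedVariables false
set_option linter.style.haveILetI false
set_option synthInstance.maxHeartbeats 400000

noncomputable section

namespace Fermat.Agent.H66.ORD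

open ModularCurve AlgebraicCurve Polynomial
open Fermat.Agent.H84.ORD Fermat.Agent.H72.FF Fermat.Agent.H94.FF

variable {N : ℕ} [NeZero N] (A : ValuationSubring Qb) (P : Place Qb (FLb N))

theorem nm_deg_one : P.deg = 1 := Fermat.Agent.H70.SS.ss_deg_eq_one_bar N P

theorem mem_nmInt_iff (f : FLb N) : f ∈ nmInt A P ↔ ∃ c ∈ A, HasVal P f c := Iff.rfl

theorem mem_nmMax_iff (f : FLb N) : f ∈ nmMax A P ↔ ∃ c ∈ A.nonunits, HasVal P f c := Iff.rfl

theorem nm_nonunits_subset (c : Qb) (hc : c ∈ A.nonunits) : c ∈ A :=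
  ValuationSubring.nonunits_subset hc

theorem nmMax_subset_nmInt {f : FLb N} (hf : f ∈ nmMax A P) : f ∈ nmInt A P := by
  obtain ⟨c, hc, h⟩ := hf
  exact ⟨c, nm_nonunits_subset A c hc, h⟩

theorem inv_mem_nonunits_of_not_mem {c : Qb} (hc : c ∉ A) : c⁻¹ ∈ A.nonunits := by
  rw [ValuationSubring.mem_nonunits_iff, map_inv₀]
  have h1 : 1 < A.valuation c := by
    by_contra h
    exact hc ((A.valuation_le_one_iff c).1 (not_lt.1 h))
  exact inv_lt_one_of_one_lt₀ h1

/-- **The composite of `O_P` and `A` is a valuation ring.** -/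
theorem mem_nmInt_or_inv_mem_nmMax (f : FLb N) : f ∈ nmInt A P ∨ f⁻¹ ∈ nmMax A P := by
  by_cases hf0 : f = 0
  · left
    rw [hf0]
    exact ⟨0, A.zero_mem, hasVal_zero P⟩
  by_cases hord : 0 ≤ P.ord f
  · obtain ⟨c, hc⟩ := exists_hasVal (nm_deg_one P) hord
    by_cases hcA : c ∈ A
    · exact Or.inl ⟨c, hcA, hc⟩
    · right
      have hc0 : c ≠ 0 := fun h => hcA (h ▸ A.zero_mem)
      exact ⟨c⁻¹, inv_mem_nonunits_of_not_mem A hcA, hc.inv hc0⟩
  · right
    refine ⟨0, ?_, (hasVal_zero_iff P).2 (Or.inr ?_)⟩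
    · rw [ValuationSubring.mem_nonunits_iff, map_zero]
      exact zero_lt_one
    · rw [P.ord_inv]
      omega

/-- the composite valuation ring `{f | f(P) ∈ A}` -/
def nmIntVal : ValuationSubring (FLb N) where
  carrier := nmInt A P
  mul_mem' := by
    rintro f g ⟨a, ha, hf⟩ ⟨b, hb, hg⟩
    exact ⟨a * b, mul_mem ha hb, HasVal.mul hf hg⟩
  one_mem' := ⟨1, A.one_mem, hasVal_one P⟩
  add_mem' := by
    rintro f g ⟨a, ha, hf⟩ ⟨b, hb, hg⟩
    exact ⟨a + b, add_mem ha hb, HasVal.add hf hg⟩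
  zero_mem' := ⟨0, A.zero_mem, hasVal_zero P⟩
  neg_mem' := by
    rintro f ⟨a, ha, hf⟩
    exact ⟨-a, neg_mem ha, HasVal.neg hf⟩
  mem_or_inv_mem' := fun f =>
    (mem_nmInt_or_inv_mem_nmMax A P f).imp id (nmMax_subset_nmInt A P)

theorem mem_nmIntVal_iff (f : FLb N) : f ∈ nmIntVal A P ↔ f ∈ nmInt A P := Iff.rfl

theorem algebraMap_mem_nmInt {c : Qb} (hc : c ∈ A) : algebraMap Qb (FLb N) c ∈ nmInt A P :=
  ⟨c, hc, hasVal_const P c⟩

/-- `1 ∉ 𝔐_P`. -/
theorem one_not_mem_nmMax : (1 : FLb N) ∉ nmMax A P := by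
  rintro ⟨c, hc, h⟩
  have h1 : c = 1 := HasVal.unique h (hasVal_one P)
  rw [h1] at hc
  exact ((A.mem_nonunits_iff).1 hc).ne (map_one _)

theorem mul_mem_nmMax {f g : FLb N} (hf : f ∈ nmMax A P) (hg : g ∈ nmInt A P) :
    f * g ∈ nmMax A P := by
  obtain ⟨a, ha, hf⟩ := hf
  obtain ⟨b, hb, hg⟩ := hg
  refine ⟨a * b, ?_, HasVal.mul hf hg⟩
  rw [ValuationSubring.mem_nonunits_iff, map_mul]
  have h1 := (A.mem_nonunits_iff).1 ha
  have h2 := (A.valuation_le_one_iff b).2 hb
  calc A.valuation a * A.valuation b ≤ A.valuation a * 1 := by gcongr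
    _ < 1 := by rwa [mul_one]

/-- an element of `nmInt` outside `nmMax` has a unit value -/
theorem exists_unit_value {f : FLb N} (hf : f ∈ nmInt A P) (hf' : f ∉ nmMax A P) :
    ∃ c ∈ A, c ∉ A.nonunits ∧ HasVal P f c := by
  obtain ⟨c, hc, h⟩ := hf
  exact ⟨c, hc, fun hn => hf' ⟨c, hn, h⟩, h⟩

/-- the product of two elements of `nmInt` outside `nmMax` is outside `nmMax` -/
theorem mul_not_mem_nmMax {f g : FLb N} (hf : f ∈ nmInt A P) (hf' : f ∉ nmMax A P)
    (hg : g ∈ nmInt A P) (hg' : g ∉ nmMax A P) : f * g ∉ nmMax A P := by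
  obtain ⟨a, ha, hna, hfa⟩ := exists_unit_value A P hf hf'
  obtain ⟨b, hb, hnb, hgb⟩ := exists_unit_value A P hg hg'
  rintro ⟨c, hc, h⟩
  have h1 : c = a * b := HasVal.unique h (HasVal.mul hfa hgb)
  rw [h1, ValuationSubring.mem_nonunits_iff, map_mul] at hc
  have h2 : A.valuation a = 1 := by
    have := (A.valuation_le_one_iff a).2 ha
    rw [ValuationSubring.mem_nonunits_iff, not_lt] at hna
    exact le_antisymm this hna
  have h3 : A.valuation b = 1 := by
    have := (A.valuation_le_one_iff b).2 hb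
    rw [ValuationSubring.mem_nonunits_iff, not_lt] at hnb
    exact le_antisymm this hnb
  rw [h2, h3, mul_one] at hc
  exact lt_irrefl _ hc

/-- **Values of integral elements** : if `y(P) ∈ A`, every element of the chart `B̄(y)` has a
value in `A` at `P`. -/
theorem nmChart_le_nmInt {y : FLb N} (hy : y ∈ nmInt A P) {f : FLb N}
    (hf : f ∈ nmChart N A y) : f ∈ nmInt A P := by
  have hle : nmPoly N A y ≤ (nmIntVal A P).toSubring := by
    unfold nmPoly
    rw [Subring.closure_le]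
    rintro x (⟨c, hc, rfl⟩ | hx)
    · exact algebraMap_mem_nmInt A P hc
    · rw [Set.mem_singleton_iff] at hx
      rw [hx]
      exact hy
  obtain ⟨q, hq, hroot⟩ := (mem_nmChart_iff N A y f).1 hf
  have hint : IsIntegral ↥(nmIntVal A P) f := by
    refine ⟨q.map (Subring.inclusion hle), hq.map _, ?_⟩
    rw [Polynomial.eval₂_map]
    exact hroot
  obtain ⟨z, hz⟩ := (IsIntegrallyClosed.isIntegral_iff (R := ↥(nmIntVal A P))
    (K := FLb N)).1 hint
  rw [← hz]
  exact z.2

/-- the chart coordinate of `P` has a value in `A` -/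
theorem nmY_mem_nmInt : nmY A P ∈ nmInt A P := by
  classical
  unfold nmY
  split_ifs with h
  · exact h
  · exact nmMax_subset_nmInt A P ((mem_nmInt_or_inv_mem_nmMax A P (nmJ N)).resolve_left h)

/-- every element of the chart of `P` has a value in `A` -/
theorem nmChart_nmY_le_nmInt {f : FLb N} (hf : f ∈ nmChart N A (nmY A P)) : f ∈ nmInt A P :=
  nmChart_le_nmInt A P (nmY_mem_nmInt A P) hf

end Fermat.Agent.H66.ORD

end
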