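import Mathlib
import Fermat.Agent.H66.ORD.DescDict
import Fermat.Agent.H66.ORD.NmValue
import Fermat.Agent.H84.ORD.NodalModelAPI
import Fermat.Agent.H34.KL.LemmaT
import Fermat.Agent.H89.KLGauss
import Fermat.Agent.H58.KL.ModelTr

/-!
# P-ORD, block B1, row 1155, part [TOTI] (helper66)

* `ker_model` : over a number field `(K₁, A₀)` : `f₁, g₁ ∈ B(y)` (`y = j` or `j⁻¹`),
  `f₁ ∈ 𝔪_∞`, `g₁ ∈ 𝔪_0`  ⟹  `f₁ g₁ ∈ ϖ B(y)`  (`ϖ C(j) = 𝔪_∞ ∩ 𝔪_0` of helper7 + LEMMA T);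
* `ker_bar` : the same at the `ℚ̄`-level : `f, g ∈ B̄(y)`, `red_∞ f = 0`, `red_0 g = 0`  ⟹
  `f g = c h` with `c ∈ 𝔪_A`, `h ∈ B̄(y)`  (descent);
* `nmTotIdeal : Fermat.Agent.H84.ORD.NmTotIdealStatement M p` : **[TOTI]** every centre lies on
  `C_∞` or on `C_0`.  (Needs only `p` prime, `p ∤ M`, `A` over `p`.)
-/

set_option autoImplicit false
set_option maxSynthPendingDepth 3
set_option linter.unusedSectionVars false
set_option linter.unusedVariables false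
set_option linter.style.haveILetI false
set_option synthInstance.maxHeartbeats 400000
set_option maxHeartbeats 1600000

noncomputable section

namespace Fermat.Agent.H66.ORD

open ModularCurve AlgebraicCurve Polynomial
open Fermat.Agent.H22.KL Fermat.Agent.H7.SS Fermat.Agent.H7.SS2 Fermat.Agent.H93.KL
open Fermat.Agent.H9.E6 Fermat.Agent.H66 Fermat.Agent.H66.SS Fermat.Agent.H84.ORD
open Fermat.Agent.H72.FF Fermat.Agent.H82.SS Fermat.Agent.H94.FF
open Fermat.Agent.H67.KLConn (PiDvd)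

section Model

variable (M p : ℕ) [NeZero M] [NeZero p]
  (K₁ : Type) [Field K₁] [Algebra ℚ K₁] [FiniteDimensional ℚ K₁]
  (A₀ : Type) [CommRing A₀] [IsDomain A₀] [IsDiscreteValuationRing A₀]
  [Algebra A₀ K₁] [IsFractionRing A₀ K₁]
  [Algebra A₀ (ModelField K₁ (M * p))] [IsScalarTower A₀ K₁ (ModelField K₁ (M * p))]

/-- **`𝔮_∞ 𝔮_0 ⊆ ϖ B(y)`** over a number field, in both charts. -/
theorem ker_model (hp : p.Prime) (hpM : ¬ p ∣ M)
    (hpA : ¬ IsUnit ((p : ℕ) : A₀)) (ϖ : A₀) (hϖ : Irreducible ϖ)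
    (x : ModelField K₁ (M * p)) (hx : (x : LaurentSeries K₁) = coeffEmb K₁ jq)
    (W : ModelField K₁ (M * p) ≃ₐ[K₁] ModelField K₁ (M * p)) (hW : IsAtkinLehnerModel K₁ M p W)
    (y : ModelField K₁ (M * p)) (hy : y = x ∨ y = x⁻¹)
    (f₁ g₁ : ModelField K₁ (M * p))
    (hf : f₁ ∈ chartClosure A₀ (ModelField K₁ (M * p)) y)
    (hg : g₁ ∈ chartClosure A₀ (ModelField K₁ (M * p)) y)
    (hfM : f₁ ∈ (vInf K₁ A₀ (M * p)).nonunits)
    (hgM : g₁ ∈ (vZero K₁ A₀ (M * p) W).nonunits) :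
    ∃ r ∈ chartClosure A₀ (ModelField K₁ (M * p)) y,
      f₁ * g₁ = algebraMap A₀ (ModelField K₁ (M * p)) ϖ * r := by
  haveI : NeZero (M * p) := ⟨Nat.mul_ne_zero (NeZero.ne M) (NeZero.ne p)⟩
  have hinj : Function.Injective (algebraMap A₀ (ModelField K₁ (M * p))) := by
    rw [IsScalarTower.algebraMap_eq A₀ K₁ (ModelField K₁ (M * p))]
    exact (algebraMap K₁ _).injective.comp (IsFractionRing.injective A₀ K₁)
  have htr : Transcendental A₀ x :=
    Fermat.Agent.H58.modelTranscendental_jq (M * p) K₁ A₀ x hx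
  have htry : Transcendental A₀ y := by
    rcases hy with rfl | rfl
    · exact htr
    · exact Fermat.Agent.H89.klg_transcendental_inv htr
  obtain ⟨-, -, hCinv⟩ := Fermat.Agent.H89.gaussClosureStatement A₀ (ModelField K₁ (M * p))
    hinj ϖ hϖ x htr
  have hCy : gaussClosure A₀ (ModelField K₁ (M * p)) ϖ y =
      gaussClosure A₀ (ModelField K₁ (M * p)) ϖ x := by
    rcases hy with rfl | rfl
    · rfl
    · exact hCinv
  have hBC : ∀ z ∈ chartClosure A₀ (ModelField K₁ (M * p)) y,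
      z ∈ vInf K₁ A₀ (M * p) ∧ z ∈ vZero K₁ A₀ (M * p) W := by
    intro z hz
    have h1 := Fermat.Agent.H89.klg_chartClosure_le_gaussClosure hϖ htry hz
    rw [hCy] at h1
    exact mem_vInf_vZero_of_mem_gaussClosure M p K₁ A₀ hpA ϖ hϖ x hx W hW z h1
  have hprod : f₁ * g₁ ∈ (vInf K₁ A₀ (M * p)).nonunits ∧
      f₁ * g₁ ∈ (vZero K₁ A₀ (M * p) W).nonunits := by
    constructor
    · rw [ValuationSubring.mem_nonunits_iff, map_mul]
      have e1 := (ValuationSubring.mem_nonunits_iff _).1 hfM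
      have e2 := (ValuationSubring.valuation_le_one_iff _ _).2 (hBC g₁ hg).1
      calc _ ≤ (vInf K₁ A₀ (M * p)).valuation f₁ * 1 := by gcongr
        _ < 1 := by rwa [mul_one]
    · rw [ValuationSubring.mem_nonunits_iff, map_mul]
      have e1 := (ValuationSubring.mem_nonunits_iff _).1 hgM
      have e2 := (ValuationSubring.valuation_le_one_iff _ _).2 (hBC f₁ hf).2
      calc _ ≤ 1 * (vZero K₁ A₀ (M * p) W).valuation g₁ := by gcongr
        _ < 1 := by rwa [one_mul]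
  have hpi := (piDvdSet_iff_vInf_vZero M p K₁ A₀ hpA ϖ hϖ x hx W hW hp hpM (f₁ * g₁)).2 hprod
  rw [← hCy] at hpi
  obtain ⟨r, hr, hfr⟩ := Fermat.Agent.H34.lemmaT A₀ (ModelField K₁ (M * p)) hinj ϖ hϖ y htry
    (f₁ * g₁) (mul_mem hf hg) hpi
  refine ⟨r, hr, ?_⟩
  rw [hfr, pow_one, Algebra.smul_def]

end Model

/-- the rational function `j` of level `N` -/
def nmJq (N : ℕ) [NeZero N] : ↥(modularFunctionFieldFull N) :=
  ⟨jq, by
    have h := jqd_mem_full N (one_dvd N)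
    rwa [qExpand_one_apply] at h⟩

theorem nmJ_eq_ratBar (N : ℕ) [NeZero N] :
    nmJ N = Fermat.Agent.H62.SS.ratBar (modularFunctionFieldFull N) (nmJq N) := by
  apply Subtype.ext
  show coeffEmb Qb (qExpand ℚ 1 jq) = coeffEmb Qb jq
  rw [qExpand_one_apply]

/-- the chart coordinate of a place is `j` or `j⁻¹`, a rational function -/
theorem exists_nmY_eq (N : ℕ) [NeZero N] (A : ValuationSubring Qb) (P : Place Qb (FLb N)) :
    ∃ w : ↥(modularFunctionFieldFull N),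
      nmY A P = Fermat.Agent.H62.SS.ratBar (modularFunctionFieldFull N) w ∧
      (w = nmJq N ∨ w = (nmJq N)⁻¹) := by
  classical
  unfold nmY
  split_ifs with h
  · exact ⟨nmJq N, nmJ_eq_ratBar N, Or.inl rfl⟩
  · exact ⟨(nmJq N)⁻¹, by rw [map_inv₀, nmJ_eq_ratBar N], Or.inr rfl⟩

/-- **`𝔮_∞ 𝔮_0 ⊆ 𝔪_A B̄(y)`** at the `ℚ̄`-level, `y = j` or `j⁻¹`. -/
theorem ker_bar (M p : ℕ) [NeZero M] [NeZero p] (hp : p.Prime) (hpM : ¬ p ∣ M)
    (hcop : Nat.Coprime M p) (A : ValuationSubring Qb) (hA : A.LiesOverPrime p)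
    (w : ↥(modularFunctionFieldFull (M * p)))
    (hw : haveI : NeZero (M * p) := ⟨Nat.mul_ne_zero (NeZero.ne M) (NeZero.ne p)⟩
      w = nmJq (M * p) ∨ w = (nmJq (M * p))⁻¹)
    (f g : FLb (M * p))
    (hf : f ∈ nmChart (M * p) A
      (Fermat.Agent.H62.SS.ratBar (modularFunctionFieldFull (M * p)) w))
    (hg : g ∈ nmChart (M * p) A
      (Fermat.Agent.H62.SS.ratBar (modularFunctionFieldFull (M * p)) w))
    (hfV : f ∈ gaussOBar (M * p) A) (hfr : gaussRedBar (M * p) A ⟨f, hfV⟩ = 0)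
    (hgV : g ∈ nmV0 M p hcop A) (hgr : nmRed0 M p hcop A ⟨g, hgV⟩ = 0) :
    ∃ c ∈ A.nonunits, ∃ h ∈ nmChart (M * p) A
        (Fermat.Agent.H62.SS.ratBar (modularFunctionFieldFull (M * p)) w),
      f * g = algebraMap Qb (FLb (M * p)) c * h := by
  classical
  haveI : NeZero (M * p) := ⟨Nat.mul_ne_zero (NeZero.ne M) (NeZero.ne p)⟩
  obtain ⟨Kf, hKf, hdf⟩ := exists_descent_nmChart (N := M * p) (A := A) w f hf
  obtain ⟨Kg, hKg, hdg⟩ := exists_descent_nmChart (N := M * p) (A := A) w g hg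
  haveI := hKf
  haveI := hKg
  set K : IntermediateField ℚ Qb := Kf ⊔ Kg with hK
  haveI : FiniteDimensional ℚ ↥K := by rw [hK]; infer_instance
  haveI : NumberField ↥K := ordNumberField_of_fd ↥K
  set ι : ↥K →+* Qb := algebraMap ↥K Qb with hι
  have hpL : ((p : ℕ) : Qb) ≠ 0 := Nat.cast_ne_zero.mpr hp.ne_zero
  haveI hDVR : IsDiscreteValuationRing ↥(A.comap ι) :=
    Fermat.Agent.H93.KL.comap_isDiscreteValuationRing ι A hpL hA
  obtain ⟨ϖ, hϖ⟩ := IsDiscreteValuationRing.exists_irreducible ↥(A.comap ι)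
  letI := modelAlgebra ↥K (A.comap ι) (M * p)
  haveI := modelAlgebra_isScalarTower ↥K (A.comap ι) (M * p)
  have hnu : ¬ IsUnit ((p : ℕ) : ↥(A.comap ι)) := by
    have h1 := Fermat.Agent.H93.KL.natCast_mem_nonunits_comap ι A hA
    rw [ValuationSubring.mem_nonunits_iff_exists_mem_maximalIdeal] at h1
    obtain ⟨hmem, hmax⟩ := h1
    rw [IsLocalRing.mem_maximalIdeal, mem_nonunits_iff] at hmax
    intro hu
    apply hmax
    have e : (⟨(p : ↥K), hmem⟩ : ↥(A.comap ι)) = ((p : ℕ) : ↥(A.comap ι)) :=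
      Subtype.ext (by simp)
    rw [e]
    exact hu
  obtain ⟨W₁, hW₁, hWbc⟩ := exists_modelW M p hcop ι
  obtain ⟨f₁, hf₁, hf₁B⟩ := hdf K le_sup_left
  obtain ⟨g₁, hg₁, hg₁B⟩ := hdg K le_sup_right
  -- the coordinate
  set x : ModelField ↥K (M * p) :=
    Fermat.Agent.H62.SS.ratK (K₁ := ↥K) (modularFunctionFieldFull (M * p)) (nmJq (M * p))
    with hxdef
  have hx : (x : LaurentSeries ↥K) = coeffEmb ↥K jq := rfl
  have hy : Fermat.Agent.H62.SS.ratK (K₁ := ↥K) (modularFunctionFieldFull (M * p)) w = x ∨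
      Fermat.Agent.H62.SS.ratK (K₁ := ↥K) (modularFunctionFieldFull (M * p)) w = x⁻¹ := by
    rcases hw with rfl | rfl
    · exact Or.inl rfl
    · exact Or.inr (map_inv₀ _ _)
  -- the maximal ideals
  have hfV' : klBc ι (modularFunctionFieldFull (M * p)) f₁ ∈ gaussOBar (M * p) A := by
    rw [hf₁]; exact hfV
  have hfM : f₁ ∈ (vInf ↥K ↥(A.comap ι) (M * p)).nonunits := by
    rw [← bc_gaussRedBar_eq_zero_iff ι A (M * p) f₁ hfV']
    have e : (⟨klBc ι (modularFunctionFieldFull (M * p)) f₁, hfV'⟩ :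
        ↥(gaussOBar (M * p) A)) = ⟨f, hfV⟩ := Subtype.ext hf₁
    rw [e]
    exact hfr
  have hgV' : klBc ι (modularFunctionFieldFull (M * p)) g₁ ∈ nmV0 M p hcop A := by
    rw [hg₁]; exact hgV
  have hgM : g₁ ∈ (vZero ↥K ↥(A.comap ι) (M * p) W₁).nonunits := by
    rw [← bc_nmRed0_eq_zero_iff M p hcop ι A W₁ hWbc g₁ hgV']
    have e : (⟨klBc ι (modularFunctionFieldFull (M * p)) g₁, hgV'⟩ :
        ↥(nmV0 M p hcop A)) = ⟨g, hgV⟩ := Subtype.ext hg₁
    rw [e]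
    exact hgr
  obtain ⟨r, hr, hfg⟩ := ker_model M p ↥K ↥(A.comap ι) hp hpM hnu ϖ hϖ x hx W₁ hW₁ _ hy
    f₁ g₁ hf₁B hg₁B hfM hgM
  refine ⟨ι (ϖ : ↥K), ?_, klBc ι (modularFunctionFieldFull (M * p)) r, ?_, ?_⟩
  · -- `ϖ` is a nonunit of `A`
    have h1 : (ϖ : ↥K) ∈ (A.comap ι).nonunits := by
      rw [ValuationSubring.mem_nonunits_iff_exists_mem_maximalIdeal]
      exact ⟨ϖ.2, by
        rw [IsLocalRing.mem_maximalIdeal, mem_nonunits_iff]
        exact hϖ.not_isUnit⟩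
    rw [ValuationSubring.mem_nonunits_iff] at h1 ⊢
    have h2 : (A.comap ι).valuation (ϖ : ↥K) < 1 := h1
    by_contra hcon
    rw [not_lt] at hcon
    -- `ι ϖ` is a unit of `A`, so `ϖ⁻¹ ∈ A ∩ K`
    have hϖ0 : (ϖ : ↥K) ≠ 0 := fun h0 => hϖ.ne_zero (Subtype.ext h0)
    have h3 : (ι (ϖ : ↥K))⁻¹ ∈ A := by
      rw [← A.valuation_le_one_iff, map_inv₀]
      exact inv_le_one_of_one_le₀ hcon
    have h4 : (ϖ : ↥K)⁻¹ ∈ A.comap ι := by
      rw [ValuationSubring.mem_comap, map_inv₀]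
      exact h3
    have h5 : IsUnit ϖ := by
      refine IsUnit.of_mul_eq_one (⟨(ϖ : ↥K)⁻¹, h4⟩ : ↥(A.comap ι)) ?_
      apply Subtype.ext
      show (ϖ : ↥K) * (ϖ : ↥K)⁻¹ = 1
      exact mul_inv_cancel₀ hϖ0
    exact hϖ.not_isUnit h5
  · have h1 := bc_mem_nmChart (M * p) A ι _ r hr
    rw [Fermat.Agent.H62.SS.klBc_ratK] at h1
    exact h1
  · rw [← hf₁, ← hg₁, ← map_mul, hfg, map_mul]
    congr 1
    rw [IsScalarTower.algebraMap_apply ↥(A.comap ι) ↥K (ModelField ↥K (M * p)),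
      Fermat.Agent.H62.SS.klBc_algebraMap']
    rfl

/-- **[TOTI]** every centre lies on `C_∞` or on `C_0`. -/
theorem nmTotIdeal_of (M p : ℕ) [NeZero M] [NeZero p] (hp : p.Prime) (hcop : Nat.Coprime M p)
    (A : ValuationSubring Qb) (hA : A.LiesOverPrime p) (P : Place Qb (FLb (M * p))) :
    NmIdealOo M p A P ∨ NmIdealZero M p hcop A P := by
  classical
  haveI : NeZero (M * p) := ⟨Nat.mul_ne_zero (NeZero.ne M) (NeZero.ne p)⟩
  have hpM : ¬ p ∣ M := fun h => by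
    have := Nat.Coprime.eq_one_of_dvd hcop.symm h
    exact hp.one_lt.ne' this
  by_contra hcon
  obtain ⟨h1, h2⟩ := not_or.1 hcon
  unfold NmIdealOo at h1
  unfold NmIdealZero at h2
  push Not at h1 h2
  obtain ⟨f, hfB, hfV, hfr, hfM⟩ := h1
  obtain ⟨g, hgB, hgV, hgr, hgM⟩ := h2
  obtain ⟨w, hwy, hw⟩ := exists_nmY_eq (M * p) A P
  have hfI := nmChart_nmY_le_nmInt A P hfB
  have hgI := nmChart_nmY_le_nmInt A P hgB
  rw [hwy] at hfB hgB
  rw [nmRedOo_eq_zero_iff] at hfr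
  obtain ⟨c, hc, r, hr, hfg⟩ := ker_bar M p hp hpM hcop A hA w hw f g hfB hgB hfV hfr hgV hgr
  rw [← hwy] at hr
  have hrI := nmChart_nmY_le_nmInt A P hr
  apply mul_not_mem_nmMax A P hfI hfM hgI hgM
  rw [hfg]
  exact mul_mem_nmMax A P ⟨c, hc, hasVal_const P c⟩ hrI

/-- **[TOTI]** in helper84's form. -/
theorem nmTotIdeal (M p : ℕ) [NeZero M] [NeZero p] : NmTotIdealStatement M p :=
  fun A h P => nmTotIdeal_of M p h.prime h.cop A h.liesOver P

end Fermat.Agent.H66.ORD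

end
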