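import Mathlib

/-!
# P-ORD, block B1-ANCHOR, part [BC](a) : abstract trace descent (helper66)

Mathlib only.

* `traceDescent` : let `Ω / K₀` be an algebraic closure (char. `0`), `E₀` a field over `K₀`,
  `F` a field over `Ω`, `j : E₀ → F` with `F = Ω · j(E₀)`, and assume that every
  `τ ∈ Aut(Ω / K₀)` extends to an endomorphism of `F` fixing `j(E₀)` pointwise.  Then, for every
  base ring `S₀ → E₀` (over `K₀`), every `f ∈ F` integral over `S₀` is `∑ aᵢ j(hᵢ)` with
  `aᵢ ∈ Ω`, `hᵢ ∈ E₀` integral over `S₀`.  (Integral closure commutes with the constant field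
  extension `Ω / K₀`.)
* `exists_const_mul_integral` : clearing denominators : for `K₀ = Frac A₀`, `h` integral over
  `K₀[y]`  ⟹  `d h` integral over `A₀[y]` for some `d ≠ 0` in `A₀`.
-/

set_option autoImplicit false
set_option linter.unusedSectionVars false
set_option linter.unusedVariables false
set_option linter.style.haveILetI false

noncomputable section

namespace Fermat.Agent.H66.ORD

open Polynomial

section TraceDescent

variable {K₀ Ω S₀ E₀ F : Type*} [Field K₀] [CharZero K₀] [Field Ω] [Algebra K₀ Ω]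
  [IsAlgClosed Ω] [Algebra.IsAlgebraic K₀ Ω]
  [CommRing S₀] [Algebra K₀ S₀] [Field E₀] [Algebra K₀ E₀] [Algebra S₀ E₀]
  [IsScalarTower K₀ S₀ E₀]
  [Field F] [Algebra Ω F] [Algebra K₀ F] [IsScalarTower K₀ Ω F] [Algebra S₀ F]
  [IsScalarTower K₀ S₀ F]

theorem td_map_smul (j : E₀ →ₐ[S₀] F) (k : K₀) (e : E₀) :
    j (k • e) = algebraMap Ω F (algebraMap K₀ Ω k) * j e := by
  rw [← IsScalarTower.algebraMap_apply K₀ Ω F, ← Algebra.smul_def,
    ← algebraMap_smul S₀ k e, map_smul, algebraMap_smul]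

theorem td_const_isIntegral (K₀ : Type*) {Ω S₀ F : Type*} [Field K₀] [Field Ω] [Algebra K₀ Ω]
    [Algebra.IsAlgebraic K₀ Ω] [CommRing S₀] [Algebra K₀ S₀]
    [Field F] [Algebra Ω F] [Algebra K₀ F] [IsScalarTower K₀ Ω F] [Algebra S₀ F]
    [IsScalarTower K₀ S₀ F] (c : Ω) : IsIntegral S₀ (algebraMap Ω F c) := by
  have h1 : IsIntegral K₀ c := (Algebra.IsAlgebraic.isAlgebraic c).isIntegral
  have h2 : IsIntegral K₀ (algebraMap Ω F c) := h1.algebraMap
  exact h2.tower_top

/-- **Trace descent** : integral closure commutes with the constant field extension. -/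
theorem traceDescent (j : E₀ →ₐ[S₀] F) (hj : Function.Injective j)
    (hact : ∀ τ : Ω →ₐ[K₀] Ω, ∃ Φ : F →ₐ[S₀] F,
      (∀ c : Ω, Φ (algebraMap Ω F c) = algebraMap Ω F (τ c)) ∧ ∀ e : E₀, Φ (j e) = j e)
    (hspan : ∀ f : F, ∃ (s : Finset Ω) (g : Ω → E₀),
      f = ∑ c ∈ s, algebraMap Ω F c * j (g c))
    (f : F) (hf : IsIntegral S₀ f) :
    ∃ (n : ℕ) (a : Fin n → Ω) (h : Fin n → E₀),
      (∀ i, IsIntegral S₀ (h i)) ∧ f = ∑ i, algebraMap Ω F (a i) * j (h i) := by
  classical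
  obtain ⟨s, g, hfs⟩ := hspan f
  let L : IntermediateField K₀ Ω := IntermediateField.adjoin K₀ (s : Set Ω)
  haveI : FiniteDimensional K₀ L :=
    IntermediateField.finiteDimensional_adjoin
      (fun x _ => (Algebra.IsAlgebraic.isAlgebraic x).isIntegral)
  haveI : Algebra.IsSeparable K₀ L := inferInstance
  haveI : IsAlgClosure K₀ Ω := ⟨inferInstance, inferInstance⟩
  haveI : Normal K₀ Ω := IsAlgClosure.normal K₀ Ω
  have hsL : ∀ c ∈ s, c ∈ L := fun c hc => IntermediateField.subset_adjoin K₀ _ hc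
  let b := Module.finBasis K₀ L
  let bd := (Algebra.traceForm K₀ L).dualBasis (traceForm_nondegenerate K₀ L) b
  -- the extension of an embedding to `Ω`
  let ext : (L →ₐ[K₀] Ω) → (Ω →ₐ[K₀] Ω) := fun σ => σ.liftNormal Ω
  have hext : ∀ (σ : L →ₐ[K₀] Ω) (x : L), ext σ (x : Ω) = σ x := fun σ x =>
    AlgHom.liftNormal_commutes σ Ω x
  choose Φ hΦc hΦj using hact
  -- the coefficient functions
  let h : L → E₀ := fun θ =>
    ∑ c ∈ s.attach, (Algebra.trace K₀ L (θ * ⟨c.1, hsL c.1 c.2⟩)) • g c.1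
  have hfs' : f = ∑ c ∈ s.attach, algebraMap Ω F c.1 * j (g c.1) := by
    rw [hfs]
    exact (Finset.sum_attach s fun c => algebraMap Ω F c * j (g c)).symm
  -- (A) `j (h θ)` is a sum of conjugates
  have hA : ∀ θ : L, j (h θ) = ∑ σ : L →ₐ[K₀] Ω, Φ (ext σ) (algebraMap Ω F (θ : Ω) * f) := by
    intro θ
    have e1 : ∀ σ : L →ₐ[K₀] Ω, Φ (ext σ) (algebraMap Ω F (θ : Ω) * f) =
        ∑ c ∈ s.attach, algebraMap Ω F (σ (θ * ⟨c.1, hsL c.1 c.2⟩)) * j (g c.1) := by
      intro σ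
      rw [hfs', Finset.mul_sum, map_sum]
      refine Finset.sum_congr rfl fun c _ => ?_
      have hc' : ext σ (c.1 : Ω) = σ ⟨c.1, hsL c.1 c.2⟩ := hext σ ⟨c.1, hsL c.1 c.2⟩
      rw [map_mul, map_mul, hΦc, hΦc, hΦj, hext σ θ, hc', map_mul σ,
        map_mul (algebraMap Ω F), mul_assoc]
    simp only [e1]
    rw [Finset.sum_comm]
    show j (∑ c ∈ s.attach, (Algebra.trace K₀ L (θ * ⟨c.1, hsL c.1 c.2⟩)) • g c.1) = _
    rw [map_sum]
    refine Finset.sum_congr rfl fun c _ => ?_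
    rw [td_map_smul (Ω := Ω), trace_eq_sum_embeddings Ω, map_sum, Finset.sum_mul]
  -- (B) integrality
  have hB : ∀ θ : L, IsIntegral S₀ (h θ) := by
    intro θ
    rw [← isIntegral_algHom_iff j hj, hA]
    refine IsIntegral.sum _ fun σ _ => ?_
    exact IsIntegral.map (Φ (ext σ)) ((td_const_isIntegral K₀ _).mul hf)
  -- (C) the expansion in the dual basis
  refine ⟨_, fun i => ((bd i : L) : Ω), fun i => h (b i), fun i => hB _, ?_⟩
  have hC : ∀ c : L, (c : Ω) = ∑ i, algebraMap K₀ Ω (Algebra.trace K₀ L (c * b i)) * (bd i : Ω) := by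
    intro c
    have h1 := bd.sum_repr c
    have h2 : ∀ i, bd.repr c i = Algebra.trace K₀ L (c * b i) := fun i => by
      rw [LinearMap.BilinForm.dualBasis_repr_apply, Algebra.traceForm_apply]
    simp only [h2] at h1
    have h3 : ((∑ i, Algebra.trace K₀ L (c * b i) • bd i : L) : Ω) = (c : Ω) :=
      congrArg (fun x : L => (x : Ω)) h1
    rw [← h3]
    push_cast
    refine Finset.sum_congr rfl fun i _ => ?_
    rw [Algebra.smul_def]
  have hD : ∀ i, algebraMap Ω F ((bd i : L) : Ω) * j (h (b i)) =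
      ∑ c ∈ s.attach, algebraMap Ω F
        (algebraMap K₀ Ω (Algebra.trace K₀ L ((⟨c.1, hsL c.1 c.2⟩ : L) * b i)) * (bd i : Ω)) *
          j (g c.1) := by
    intro i
    show algebraMap Ω F ((bd i : L) : Ω) *
      j (∑ c ∈ s.attach, (Algebra.trace K₀ L (b i * ⟨c.1, hsL c.1 c.2⟩)) • g c.1) = _
    rw [map_sum, Finset.mul_sum]
    refine Finset.sum_congr rfl fun c _ => ?_
    rw [td_map_smul (Ω := Ω), map_mul (algebraMap Ω F), mul_comm (b i)]
    ring
  simp only [hD]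
  rw [Finset.sum_comm, hfs']
  refine Finset.sum_congr rfl fun c _ => ?_
  rw [← Finset.sum_mul, ← map_sum, ← hC ⟨c.1, hsL c.1 c.2⟩]

end TraceDescent

section ClearDenominators

variable (A₀ K₀ E : Type*) [CommRing A₀] [IsDomain A₀] [Field K₀] [Algebra A₀ K₀]
  [IsFractionRing A₀ K₀] [Field E] [Algebra A₀ E] [Algebra K₀ E] [IsScalarTower A₀ K₀ E]

/-- every element of `K₀[y]` has a constant multiple in `A₀[y]` -/
theorem exists_const_mul_mem_adjoin (y : E) (a : E) (ha : a ∈ Algebra.adjoin K₀ {y}) :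
    ∃ d : A₀, d ≠ 0 ∧ algebraMap A₀ E d * a ∈ Algebra.adjoin A₀ {y} := by
  induction ha using Algebra.adjoin_induction with
  | mem x hx =>
    refine ⟨1, one_ne_zero, ?_⟩
    rw [map_one, one_mul]
    exact Algebra.subset_adjoin hx
  | algebraMap k =>
    obtain ⟨b, n, hn⟩ := IsLocalization.exists_integer_multiple (nonZeroDivisors A₀) k
    refine ⟨b, nonZeroDivisors.ne_zero b.2, ?_⟩
    have e : algebraMap A₀ E b * algebraMap K₀ E k = algebraMap A₀ E n := by
      rw [IsScalarTower.algebraMap_apply A₀ K₀ E, ← map_mul,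
        IsScalarTower.algebraMap_apply A₀ K₀ E n, hn, Algebra.smul_def]
    rw [e]
    exact Subalgebra.algebraMap_mem _ _
  | add a₁ a₂ _ _ h₁ h₂ =>
    obtain ⟨d₁, hd₁, h₁⟩ := h₁
    obtain ⟨d₂, hd₂, h₂⟩ := h₂
    refine ⟨d₁ * d₂, mul_ne_zero hd₁ hd₂, ?_⟩
    have e : algebraMap A₀ E (d₁ * d₂) * (a₁ + a₂) =
        algebraMap A₀ E d₂ * (algebraMap A₀ E d₁ * a₁) +
          algebraMap A₀ E d₁ * (algebraMap A₀ E d₂ * a₂) := by
      rw [map_mul]; ring
    rw [e]
    exact add_mem (mul_mem (Subalgebra.algebraMap_mem _ _) h₁)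
      (mul_mem (Subalgebra.algebraMap_mem _ _) h₂)
  | mul a₁ a₂ _ _ h₁ h₂ =>
    obtain ⟨d₁, hd₁, h₁⟩ := h₁
    obtain ⟨d₂, hd₂, h₂⟩ := h₂
    refine ⟨d₁ * d₂, mul_ne_zero hd₁ hd₂, ?_⟩
    have e : algebraMap A₀ E (d₁ * d₂) * (a₁ * a₂) =
        (algebraMap A₀ E d₁ * a₁) * (algebraMap A₀ E d₂ * a₂) := by
      rw [map_mul]; ring
    rw [e]
    exact mul_mem h₁ h₂

/-- finitely many elements of `K₀[y]` have a common constant multiple in `A₀[y]` -/
theorem exists_const_mul_mem_adjoin_finset (y : E) {I : Type*} (t : Finset I) (a : I → E)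
    (ha : ∀ i ∈ t, a i ∈ Algebra.adjoin K₀ {y}) :
    ∃ d : A₀, d ≠ 0 ∧ ∀ i ∈ t, algebraMap A₀ E d * a i ∈ Algebra.adjoin A₀ {y} := by
  classical
  induction t using Finset.induction_on with
  | empty => exact ⟨1, one_ne_zero, fun i hi => absurd hi (Finset.notMem_empty i)⟩
  | insert i₀ t hi₀ ih =>
    obtain ⟨d₁, hd₁, h₁⟩ := ih fun i hi => ha i (Finset.mem_insert_of_mem hi)
    obtain ⟨d₂, hd₂, h₂⟩ := exists_const_mul_mem_adjoin A₀ K₀ E y (a i₀)
      (ha i₀ (Finset.mem_insert_self i₀ t))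
    refine ⟨d₁ * d₂, mul_ne_zero hd₁ hd₂, fun i hi => ?_⟩
    rcases Finset.mem_insert.1 hi with rfl | hi
    · have e : algebraMap A₀ E (d₁ * d₂) * a i = algebraMap A₀ E d₁ * (algebraMap A₀ E d₂ * a i) := by
        rw [map_mul]; ring
      rw [e]
      exact mul_mem (Subalgebra.algebraMap_mem _ _) h₂
    · have e : algebraMap A₀ E (d₁ * d₂) * a i = algebraMap A₀ E d₂ * (algebraMap A₀ E d₁ * a i) := by
        rw [map_mul]; ring
      rw [e]
      exact mul_mem (Subalgebra.algebraMap_mem _ _) (h₁ i hi)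

/-- **Clearing denominators** : `h` integral over `K₀[y]`  ⟹  `d h` integral over `A₀[y]` for
some `d ≠ 0` in `A₀`. -/
theorem exists_const_mul_integral (y h : E) (hh : IsIntegral (Algebra.adjoin K₀ {y}) h) :
    ∃ d : A₀, d ≠ 0 ∧ IsIntegral (Algebra.adjoin A₀ {y}) (algebraMap A₀ E d * h) := by
  classical
  obtain ⟨P, hPm, hP⟩ := hh
  set P' : E[X] := P.map (algebraMap (Algebra.adjoin K₀ {y}) E) with hP'
  have hP'm : P'.Monic := hPm.map _
  have hP'0 : eval h P' = 0 := by rw [hP', eval_map]; exact hP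
  obtain ⟨d, hd, hdc⟩ := exists_const_mul_mem_adjoin_finset A₀ K₀ E y
    (Finset.range (P'.natDegree + 1)) (fun i => P'.coeff i) (fun i _ => by
      rw [hP', coeff_map]
      exact (P.coeff i).2)
  refine ⟨d, hd, ?_⟩
  set Q' : E[X] := P'.scaleRoots (algebraMap A₀ E d) with hQ'
  have hQ'm : Q'.Monic := (monic_scaleRoots_iff _).2 hP'm
  have hQ'0 : eval (algebraMap A₀ E d * h) Q' = 0 := by
    have := scaleRoots_eval₂_eq_zero (RingHom.id E) (p := P') (r := h) (s := algebraMap A₀ E d)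
      (by rw [eval₂_id]; exact hP'0)
    rw [eval₂_id] at this
    exact this
  have hlift : Q' ∈ lifts (algebraMap (Algebra.adjoin A₀ {y}) E) := by
    rw [lifts_iff_coeff_lifts]
    intro i
    rw [hQ', coeff_scaleRoots]
    rcases lt_trichotomy i P'.natDegree with hi | hi | hi
    · have h1 := hdc i (Finset.mem_range.2 (by omega))
      have e : P'.coeff i * algebraMap A₀ E d ^ (P'.natDegree - i) =
          (algebraMap A₀ E d * P'.coeff i) * algebraMap A₀ E d ^ (P'.natDegree - i - 1) := by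
        have : P'.natDegree - i = (P'.natDegree - i - 1) + 1 := by omega
        rw [this, pow_succ]
        simp only [Nat.add_sub_cancel]
        ring
      rw [e]
      have h2 : (algebraMap A₀ E d * P'.coeff i) * algebraMap A₀ E d ^ (P'.natDegree - i - 1) ∈
          Algebra.adjoin A₀ {y} :=
        mul_mem h1 (pow_mem (Subalgebra.algebraMap_mem _ _) _)
      exact ⟨⟨_, h2⟩, rfl⟩
    · rw [hi, Nat.sub_self, pow_zero, mul_one, hP'm.coeff_natDegree]
      exact ⟨1, map_one _⟩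
    · rw [coeff_eq_zero_of_natDegree_lt hi, zero_mul]
      exact ⟨0, map_zero _⟩
  obtain ⟨q, hq, -, hqm⟩ := lifts_and_natDegree_eq_and_monic hlift hQ'm
  refine ⟨q, hqm, ?_⟩
  rw [← eval_map, hq]
  exact hQ'0

end ClearDenominators

end Fermat.Agent.H66.ORD

end
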