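import Mathlib
import Fermat.Agent.H66.ORD.DescDict
import Fermat.Agent.H66.ORD.TraceDescent
import Fermat.Agent.H70.ORD.RatUnique

/-!
# P-ORD, block B1-ANCHOR, part [BC](a) : the generic base change (helper66)

`ι₀ : K₀ → ℚ̄` any field, `A` a valuation subring of `ℚ̄`, `A₀ = A.comap ι₀`,
`B₀(y) = chartClosure A₀ (ModelField K₀ N) y₀`, `B̄(y) = nmChart N A y`, `y` rational.

* `bcIntegral` : every `f ∈ FLb N` integral over `ℚ̄[y]` is `∑ aᵢ bc(hᵢ)` with `aᵢ ∈ ℚ̄` and
  `hᵢ ∈ ModelField K₀ N` integral over `K₀[y₀]`;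
* `bcGeneric` : **[BC](a)** for every `f ∈ B̄(y)` there is `c ≠ 0` in `A` with
  `c f = ∑ aᵢ bc(bᵢ)`, `aᵢ ∈ A`, `bᵢ ∈ B₀(y)`.
-/

set_option autoImplicit false
set_option maxSynthPendingDepth 3
set_option linter.unusedSectionVars false
set_option linter.unusedVariables false
set_option linter.style.haveILetI false
set_option synthInstance.maxHeartbeats 400000
set_option maxHeartbeats 1600000

noncomputable section

namespace Fermat.Agent.H66.ORD

open ModularCurve AlgebraicCurve Polynomial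
open Fermat.Agent.H22.KL Fermat.Agent.H93.KL
open Fermat.Agent.H9.E6 Fermat.Agent.H66 Fermat.Agent.H84.ORD
open Fermat.Agent.H72.FF

section Denominators

/-- finitely many elements of the fraction field of a valuation ring have a common
denominator -/
theorem exists_common_den {K : Type*} [Field K] (A : ValuationSubring K) {I : Type*}
    (t : Finset I) (x : I → K) : ∃ c ∈ A, c ≠ 0 ∧ ∀ i ∈ t, c * x i ∈ A := by
  classical
  induction t using Finset.induction_on with
  | empty => exact ⟨1, one_mem A, one_ne_zero, fun i hi => absurd hi (Finset.notMem_empty i)⟩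
  | insert i₀ t hi₀ ih =>
    obtain ⟨c, hc, hc0, hct⟩ := ih
    obtain ⟨d, hd, hd0, hdx⟩ : ∃ d ∈ A, d ≠ 0 ∧ d * (c * x i₀) ∈ A := by
      rcases A.mem_or_inv_mem (c * x i₀) with h | h
      · exact ⟨1, one_mem A, one_ne_zero, by rwa [one_mul]⟩
      · by_cases h0 : c * x i₀ = 0
        · exact ⟨1, one_mem A, one_ne_zero, by rw [one_mul, h0]; exact zero_mem A⟩
        · exact ⟨(c * x i₀)⁻¹, h, inv_ne_zero h0, by
            rw [inv_mul_cancel₀ h0]; exact one_mem A⟩
    refine ⟨d * c, mul_mem hd hc, mul_ne_zero hd0 hc0, fun i hi => ?_⟩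
    rcases Finset.mem_insert.1 hi with rfl | hi
    · rw [mul_assoc]; exact hdx
    · rw [mul_assoc]; exact mul_mem hd (hct i hi)

end Denominators

section BcGeneric

variable (N : ℕ) {K₀ : Type} [Field K₀] [Algebra ℚ K₀] (ι₀ : K₀ →+* QBar)

/-- conjugation of the constants fixes the functions defined over `K₀` -/
theorem klBc_klBc_of_comp (τ : QBar →+* QBar) (hτ : τ.comp ι₀ = ι₀) (e : ModelField K₀ N) :
    klBc τ (modularFunctionFieldFull N) (klBc ι₀ (modularFunctionFieldFull N) e) =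
      klBc ι₀ (modularFunctionFieldFull N) e := by
  apply Subtype.ext
  show coeffMap τ (coeffMap ι₀ (e : LaurentSeries K₀)) = coeffMap ι₀ (e : LaurentSeries K₀)
  rw [coeffMap_coeffMap, hτ]

/-- **Integral closure commutes with the extension of constants `ℚ̄ / K₀`.** -/
theorem bcIntegral (w : ↥(modularFunctionFieldFull N)) (f : FLb N)
    (hf : f ∈ nmChart N (⊤ : ValuationSubring QBar)
      (Fermat.Agent.H62.SS.ratBar (modularFunctionFieldFull N) w)) :
    ∃ (n : ℕ) (a : Fin n → QBar) (h : Fin n → ModelField K₀ N),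
      (∀ i, IsIntegral ↥(Algebra.adjoin K₀
        {Fermat.Agent.H62.SS.ratK (K₁ := K₀) (modularFunctionFieldFull N) w}) (h i)) ∧
      f = ∑ i, algebraMap QBar (FLb N) (a i) * klBc ι₀ (modularFunctionFieldFull N) (h i) := by
  classical
  set y₀ : ModelField K₀ N :=
    Fermat.Agent.H62.SS.ratK (K₁ := K₀) (modularFunctionFieldFull N) w with hy₀
  set y : FLb N := Fermat.Agent.H62.SS.ratBar (modularFunctionFieldFull N) w with hy
  have hyy : klBc ι₀ (modularFunctionFieldFull N) y₀ = y :=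
    Fermat.Agent.H62.SS.klBc_ratK ι₀ (modularFunctionFieldFull N) w
  letI algK : Algebra K₀ QBar := ι₀.toAlgebra
  haveI towQ : IsScalarTower ℚ K₀ QBar :=
    IsScalarTower.of_algebraMap_eq fun q => (ι₀.map_rat_algebraMap q).symm
  haveI : Algebra.IsAlgebraic ℚ QBar := AlgebraicClosure.isAlgebraic ℚ
  haveI : Algebra.IsAlgebraic K₀ QBar := Algebra.IsAlgebraic.tower_top (K := ℚ) K₀
  haveI : CharZero K₀ := algebraRat.charZero K₀
  letI algKF : Algebra K₀ (FLb N) := ((algebraMap QBar (FLb N)).comp ι₀).toAlgebra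
  haveI towKF : IsScalarTower K₀ QBar (FLb N) := IsScalarTower.of_algebraMap_eq fun _ => rfl
  letI algSF : Algebra ↥(Algebra.adjoin K₀ {y₀}) (FLb N) :=
    ((klBc ι₀ (modularFunctionFieldFull N)).comp
      (algebraMap ↥(Algebra.adjoin K₀ {y₀}) (ModelField K₀ N))).toAlgebra
  haveI towSF : IsScalarTower K₀ ↥(Algebra.adjoin K₀ {y₀}) (FLb N) :=
    IsScalarTower.of_algebraMap_eq fun k =>
      (Fermat.Agent.H62.SS.klBc_algebraMap' ι₀ (modularFunctionFieldFull N) k).symm
  let j : ModelField K₀ N →ₐ[↥(Algebra.adjoin K₀ {y₀})] FLb N :=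
    { klBc ι₀ (modularFunctionFieldFull N) with commutes' := fun _ => rfl }
  have hjc : ∀ e, j e = klBc ι₀ (modularFunctionFieldFull N) e := fun _ => rfl
  have hj : Function.Injective j := (klBc ι₀ (modularFunctionFieldFull N)).injective
  -- the action of the Galois group
  have hact : ∀ τ : QBar →ₐ[K₀] QBar, ∃ Φ : FLb N →ₐ[↥(Algebra.adjoin K₀ {y₀})] FLb N,
      (∀ c : QBar, Φ (algebraMap QBar (FLb N) c) = algebraMap QBar (FLb N) (τ c)) ∧
        ∀ e : ModelField K₀ N, Φ (j e) = j e := by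
    intro τ
    have hτ : (τ : QBar →+* QBar).comp ι₀ = ι₀ := RingHom.ext fun k => τ.commutes k
    refine ⟨{ klBc (τ : QBar →+* QBar) (modularFunctionFieldFull N) with
      commutes' := fun x => klBc_klBc_of_comp N ι₀ _ hτ _ }, fun c => ?_, fun e => ?_⟩
    · exact Fermat.Agent.H62.SS.klBc_algebraMap' (τ : QBar →+* QBar)
        (modularFunctionFieldFull N) c
    · exact klBc_klBc_of_comp N ι₀ _ hτ e
  have hspan : ∀ f : FLb N, ∃ (s : Finset QBar) (g : QBar → ModelField K₀ N),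
      f = ∑ c ∈ s, algebraMap QBar (FLb N) c * j (g c) := fun f =>
    Fermat.Agent.H70.ORD.exists_sum_klBc ι₀ (modularFunctionFieldFull N) f
  -- integrality over `K₀[y₀]`
  have hfI : IsIntegral ↥(Algebra.adjoin K₀ {y₀}) f := by
    have hle : nmPoly N (⊤ : ValuationSubring QBar) y ≤
        (integralClosure ↥(Algebra.adjoin K₀ {y₀}) (FLb N)).toSubring := by
      refine Subring.closure_le.2 ?_
      rintro x (⟨c, -, rfl⟩ | hx)
      · exact td_const_isIntegral K₀ c
      · rw [Set.mem_singleton_iff] at hx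
        rw [hx, ← hyy]
        exact isIntegral_algebraMap (R := ↥(Algebra.adjoin K₀ {y₀}))
          (x := ⟨y₀, Algebra.subset_adjoin rfl⟩)
    obtain ⟨P, hP, hroot⟩ := (mem_nmChart_iff N _ y f).1 hf
    let φ : ↥(nmPoly N (⊤ : ValuationSubring QBar) y) →+*
        ↥(integralClosure ↥(Algebra.adjoin K₀ {y₀}) (FLb N)) :=
      RingHom.codRestrict (nmPoly N (⊤ : ValuationSubring QBar) y).subtype
        (integralClosure ↥(Algebra.adjoin K₀ {y₀}) (FLb N)) (fun c => hle c.2)
    have h1 : IsIntegral ↥(integralClosure ↥(Algebra.adjoin K₀ {y₀}) (FLb N)) f := by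
      refine ⟨P.map φ, hP.map φ, ?_⟩
      rw [Polynomial.eval₂_map]
      exact hroot
    exact isIntegral_trans f h1
  obtain ⟨n, a, h, hh, hfe⟩ := traceDescent (K₀ := K₀) (Ω := QBar) j hj hact hspan f hfI
  exact ⟨n, a, h, hh, hfe⟩

theorem nmPoly_mono {A A' : ValuationSubring QBar} (hAA : A ≤ A') (y : FLb N) :
    nmPoly N A y ≤ nmPoly N A' y := by
  refine Subring.closure_mono ?_
  rintro x (⟨c, hc, rfl⟩ | hx)
  · exact Or.inl ⟨c, hAA hc, rfl⟩
  · exact Or.inr hx

/-- the inclusion `A[y] → A'[y]` -/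
def nmPolyIncl {A A' : ValuationSubring QBar} (hAA : A ≤ A') (y : FLb N) :
    ↥(nmPoly N A y) →+* ↥(nmPoly N A' y) :=
  RingHom.codRestrict (nmPoly N A y).subtype (nmPoly N A' y) (fun c => nmPoly_mono N hAA y c.2)

theorem nmPolyIncl_comp {A A' : ValuationSubring QBar} (hAA : A ≤ A') (y : FLb N) :
    (nmPoly N A' y).subtype.comp (nmPolyIncl N hAA y) = (nmPoly N A y).subtype := by
  refine RingHom.ext fun x => ?_
  rw [RingHom.comp_apply, Subring.subtype_apply, Subring.subtype_apply, nmPolyIncl,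
    RingHom.codRestrict_apply, Subring.subtype_apply]

theorem nmChart_mono {A A' : ValuationSubring QBar} (hAA : A ≤ A') (y : FLb N) (f : FLb N)
    (hf : f ∈ nmChart N A y) : f ∈ nmChart N A' y := by
  obtain ⟨P, hP, hroot⟩ := (mem_nmChart_iff N A y f).1 hf
  have h2 : (nmPoly N A' y).subtype.IsIntegralElem f := by
    refine ⟨P.map (nmPolyIncl N hAA y), hP.map _, ?_⟩
    rw [Polynomial.eval₂_map, nmPolyIncl_comp N hAA y]
    exact hroot
  exact (mem_nmChart_iff N A' y f).2 h2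

/-- **[BC](a)** : every `f ∈ B̄(y)` has a nonzero constant multiple in `A · bc(B₀(y))`. -/
theorem bcGeneric (A : ValuationSubring QBar)
    [Algebra ↥(A.comap ι₀) (ModelField K₀ N)]
    [IsScalarTower ↥(A.comap ι₀) K₀ (ModelField K₀ N)]
    (w : ↥(modularFunctionFieldFull N)) (f : FLb N)
    (hf : f ∈ nmChart N A (Fermat.Agent.H62.SS.ratBar (modularFunctionFieldFull N) w)) :
    ∃ c ∈ A, c ≠ 0 ∧ ∃ (n : ℕ) (a : Fin n → QBar) (b : Fin n → ModelField K₀ N),
      (∀ i, a i ∈ A) ∧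
      (∀ i, b i ∈ chartClosure ↥(A.comap ι₀) (ModelField K₀ N)
        (Fermat.Agent.H62.SS.ratK (K₁ := K₀) (modularFunctionFieldFull N) w)) ∧
      algebraMap QBar (FLb N) c * f =
        ∑ i, algebraMap QBar (FLb N) (a i) * klBc ι₀ (modularFunctionFieldFull N) (b i) := by
  classical
  obtain ⟨n, a, h, hh, hfe⟩ := bcIntegral N ι₀ w f (nmChart_mono N le_top _ f hf)
  have hd : ∀ i, ∃ d : ↥(A.comap ι₀), d ≠ 0 ∧
      IsIntegral ↥(Algebra.adjoin ↥(A.comap ι₀)
        {Fermat.Agent.H62.SS.ratK (K₁ := K₀) (modularFunctionFieldFull N) w})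
        (algebraMap ↥(A.comap ι₀) (ModelField K₀ N) d * h i) := fun i =>
    exists_const_mul_integral ↥(A.comap ι₀) K₀ (ModelField K₀ N) _ (h i) (hh i)
  choose d hd0 hdI using hd
  have hιd : ∀ i, ι₀ ((d i : ↥(A.comap ι₀)) : K₀) ≠ 0 := fun i => by
    rw [Ne, map_eq_zero]
    exact fun h0 => hd0 i (Subtype.ext h0)
  obtain ⟨c, hc, hc0, hca⟩ := exists_common_den A (Finset.univ : Finset (Fin n))
    (fun i => a i * (ι₀ ((d i : ↥(A.comap ι₀)) : K₀))⁻¹)
  refine ⟨c, hc, hc0, n, fun i => c * (a i * (ι₀ ((d i : ↥(A.comap ι₀)) : K₀))⁻¹),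
    fun i => algebraMap ↥(A.comap ι₀) (ModelField K₀ N) (d i) * h i,
    fun i => hca i (Finset.mem_univ i), fun i => hdI i, ?_⟩
  rw [hfe, Finset.mul_sum]
  refine Finset.sum_congr rfl fun i _ => ?_
  rw [map_mul (klBc ι₀ (modularFunctionFieldFull N)),
    IsScalarTower.algebraMap_apply ↥(A.comap ι₀) K₀ (ModelField K₀ N),
    Fermat.Agent.H62.SS.klBc_algebraMap', map_mul (algebraMap QBar (FLb N)),
    map_mul (algebraMap QBar (FLb N)), map_inv₀]
  have hne : algebraMap QBar (FLb N) (ι₀ ((d i : ↥(A.comap ι₀)) : K₀)) ≠ 0 := by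
    rw [Ne, map_eq_zero]
    exact hιd i
  have e : (algebraMap ↥(A.comap ι₀) K₀ (d i)) = ((d i : ↥(A.comap ι₀)) : K₀) := rfl
  rw [e]
  field_simp

/-- **[BC](a)**, with a number field containing the constants. -/
theorem bcGeneric_field (A : ValuationSubring QBar)
    [Algebra ↥(A.comap ι₀) (ModelField K₀ N)]
    [IsScalarTower ↥(A.comap ι₀) K₀ (ModelField K₀ N)]
    (w : ↥(modularFunctionFieldFull N)) (f : FLb N)
    (hf : f ∈ nmChart N A (Fermat.Agent.H62.SS.ratBar (modularFunctionFieldFull N) w)) :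
    ∃ (K₁ : IntermediateField ℚ QBar), FiniteDimensional ℚ ↥K₁ ∧
      ∃ c ∈ A, c ≠ 0 ∧ c ∈ K₁ ∧ ∃ (n : ℕ) (a : Fin n → QBar) (b : Fin n → ModelField K₀ N),
      (∀ i, a i ∈ A) ∧ (∀ i, a i ∈ K₁) ∧
      (∀ i, b i ∈ chartClosure ↥(A.comap ι₀) (ModelField K₀ N)
        (Fermat.Agent.H62.SS.ratK (K₁ := K₀) (modularFunctionFieldFull N) w)) ∧
      algebraMap QBar (FLb N) c * f =
        ∑ i, algebraMap QBar (FLb N) (a i) * klBc ι₀ (modularFunctionFieldFull N) (b i) := by
  classical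
  obtain ⟨c, hc, hc0, n, a, b, ha, hb, hfe⟩ := bcGeneric N ι₀ A w f hf
  haveI : Algebra.IsAlgebraic ℚ QBar := AlgebraicClosure.isAlgebraic ℚ
  haveI : Finite ↑(({c} : Set QBar) ∪ Set.range a) :=
    Set.Finite.union (Set.finite_singleton c) (Set.finite_range a)
  refine ⟨IntermediateField.adjoin ℚ (({c} : Set QBar) ∪ Set.range a),
    IntermediateField.finiteDimensional_adjoin
      (fun x _ => (Algebra.IsAlgebraic.isAlgebraic x).isIntegral),
    c, hc, hc0, IntermediateField.subset_adjoin ℚ _ (Or.inl rfl), n, a, b, ha,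
    fun i => IntermediateField.subset_adjoin ℚ _ (Or.inr ⟨i, rfl⟩), hb, hfe⟩

end BcGeneric

end Fermat.Agent.H66.ORD

end
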