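import Mathlib
import Fermat.Agent.H66.ORD.BcGeneric
import Fermat.Agent.H92.ORD.BcChart

/-!
# P-ORD, block B1-ANCHOR, part [BC](a) in helper92's shape (helper66)

* `bcGenericAt : Fermat.Agent.H92.ORD.BcGenericAt M p A K₀` for every valuation subring `A` of
  `ℚ̄` and every intermediate field `K₀` (unconditional).
-/

set_option autoImplicit false
set_option maxSynthPendingDepth 3
set_option linter.unusedSectionVars false
set_option linter.unusedVariables false
set_option linter.style.haveILetI false
set_option synthInstance.maxHeartbeats 400000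
set_option maxHeartbeats 1600000

noncomputable section

namespace Fermat.Agent.H66.ORD

open ModularCurve AlgebraicCurve
open Fermat.Agent.H22.KL Fermat.Agent.H93.KL
open Fermat.Agent.H9.E6 Fermat.Agent.H66 Fermat.Agent.H84.ORD
open Fermat.Agent.H72.FF Fermat.Agent.H93.ORD

/-- **[BC](a)** in the shape of `Fermat.Agent.H92.ORD.BcGenericAt`. -/
theorem bcGenericAt (M p : ℕ) [NeZero M] [NeZero p] (A : ValuationSubring QBar)
    (K₀ : IntermediateField ℚ QBar) : Fermat.Agent.H92.ORD.BcGenericAt M p A K₀ := by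
  intro f hf
  letI := modelAlgebra ↥K₀ (A.comap (algebraMap ↥K₀ QBar)) (M * p)
  haveI : IsScalarTower ↥(A.comap (algebraMap ↥K₀ QBar)) ↥K₀ (ModelField ↥K₀ (M * p)) :=
    modelAlgebra_isScalarTower ↥K₀ (A.comap (algebraMap ↥K₀ QBar)) (M * p)
  have hf' : f ∈ nmChart (M * p) A
      (Fermat.Agent.H62.SS.ratBar (modularFunctionFieldFull (M * p)) (ntiJ (M * p))) := hf
  exact bcGeneric (M * p) (algebraMap ↥K₀ QBar) A (ntiJ (M * p)) f hf'

end Fermat.Agent.H66.ORD

end
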